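import Mathlib
import Fermat.Prelude.Def_CuspForm_HeckeAlgebra
import Fermat.Agent.MUL.F3.I2.Kappa.CharOf

section MergeWrap_Lib_Petersson_Interface -- from Lib/Petersson/Interface.lean

/-!
# Lib/Petersson: interface between the analytic and the algebraic half (architect: helper33)

`HasSelfAdjointForm N k` is what the analytic half (Petersson scalar product, files
`FdBasic`, `Weights`, `Mean`, `Adjoint`) proves and what the algebraic half (`Reduced`, owner
helper31) consumes.  It is deliberately minimal: a biadditive form on `S_k(Γ₀(N))` which is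
definite and for which every `T_ℓ`, `ℓ ∤ N`, is self-adjoint.  This suffices for
"a nilpotent element of the Hecke algebra away from the level is zero":
every `t` in `adjoin ℤ {T_ℓ}` is self-adjoint; `t ^ 2 = 0` gives `B (t f) (t f) = B (t^2 f) f = 0`.
-/

namespace Fermat.Agent.Pet

open CongruenceSubgroup

/-- There is a biadditive definite form on `S_k(Γ₀(N))` for which all `T_ℓ` (`ℓ ∤ N`) are
self-adjoint. -/
def HasSelfAdjointForm (N : ℕ) [NeZero N] (k : ℤ) : Prop :=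
  ∃ B : CuspForm (Gamma0 N) k → CuspForm (Gamma0 N) k → ℂ,
    (∀ f g h, B (f + g) h = B f h + B g h) ∧
    (∀ f g h, B f (g + h) = B f g + B f h) ∧
    (∀ f, B f f = 0 → f = 0) ∧
    (∀ (ℓ : ℕ) (hℓ : ℓ.Prime) (hℓN : ¬ ℓ ∣ N) (f g : CuspForm (Gamma0 N) k),
      B (CuspForm.heckeTLin k hℓ hℓN f) g = B f (CuspForm.heckeTLin k hℓ hℓN g))

end Fermat.Agent.Pet
end MergeWrap_Lib_Petersson_Interface

section MergeWrap_Lib_Petersson_Defs -- from Lib/Petersson/Defs.lean

/-!
# Lib/Petersson: definitions (architect: helper33)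

Integration over `Γ \ ℍ` WITHOUT fundamental domains of subgroups: a *weight* for a countable
group `Δ` acting on a measure space is a nonnegative integrable function `w` with
`∑_{δ ∈ Δ} w (δ x) = 1` for almost every `x`.  Then `∫ w • φ` does not depend on `w` when `φ` is
`Δ`-invariant ("unfolding"), and the normalised `mean` is invariant under commensurators.
For `SL(2, ℤ)` the function `(1/2) 1_𝒟` is a weight (the factor 2 takes care of `-1`).
-/

namespace Fermat.Agent.Pet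

open MeasureTheory

section general

variable {G X : Type*} [Group G] [MulAction G X] [MeasurableSpace X]

/-- `w` is a weight for the subgroup `Δ` acting on `(X, μ)`. -/
structure IsWeight (μ : Measure X) (Δ : Subgroup G) (w : X → ℝ) : Prop where
  measurable : Measurable w
  nonneg : ∀ x, 0 ≤ w x
  integrable : Integrable w μ
  hasSum : ∀ᵐ x ∂μ, HasSum (fun δ : Δ => w ((δ : G) • x)) 1

/-- The normalised mean of `φ` with respect to the weight `w`. -/
noncomputable def mean (μ : Measure X) (w : X → ℝ) {E : Type*} [NormedAddCommGroup E]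
    [NormedSpace ℝ E] (φ : X → E) : E :=
  (∫ x, w x ∂μ)⁻¹ • ∫ x, w x • φ x ∂μ

end general

open scoped MatrixGroups

/-- The image of `SL(2, ℤ)` in `GL(2, ℝ)`. -/
def SLZ : Subgroup (GL (Fin 2) ℝ) :=
  (Matrix.SpecialLinearGroup.mapGL ℝ : SL(2, ℤ) →* GL (Fin 2) ℝ).range

/-- The image of `Γ(m)` in `GL(2, ℝ)`. -/
def GammaGL (m : ℕ) : Subgroup (GL (Fin 2) ℝ) :=
  (CongruenceSubgroup.Gamma m).map (Matrix.SpecialLinearGroup.mapGL ℝ)

end Fermat.Agent.Pet
end MergeWrap_Lib_Petersson_Defs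

section MergeWrap_Lib_Petersson_WeightsU1 -- from Lib/Petersson/WeightsU1.lean

/-!
# Lib/Petersson/WeightsU1: unfolding for weights (helper47, for helper33's `Weights.lean`)

* `wU1_integrable_smul`   : `w • φ` is integrable for a weight `w` and bounded measurable `φ`;
* `wU1_hasSum_integral`   : partition of unity: `∫ u • φ = ∑_i ∫ (v_i u) • φ` when `∑_i v_i = 1` a.e.;
* `wU1_integral_smul_eq`  : (U1) the integral of an invariant function against a weight does not
  depend on the weight.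
The signatures of the first and the last are those of `IsWeight.integrable_smul` and
`IsWeight.integral_smul_eq` in `Weights.lean`.
-/

set_option autoImplicit false

namespace Fermat.Agent.Pet

open MeasureTheory

section general

variable {X : Type*} [MeasurableSpace X] {μ : Measure X}
  {E : Type*} [NormedAddCommGroup E] [NormedSpace ℝ E]

/-- integrability of `u • φ` for integrable `u` and bounded measurable `φ`. -/
theorem wU1_integrable_smul_of_integrable {u : X → ℝ} (hu : Integrable u μ)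
    {φ : X → E} (hφm : AEStronglyMeasurable φ μ) (hφb : ∃ C, ∀ x, ‖φ x‖ ≤ C) :
    Integrable (fun x => u x • φ x) μ := by
  obtain ⟨C, hC⟩ := hφb
  exact hu.smul_bdd C hφm (Filter.Eventually.of_forall hC)

/-- partition of unity: if `∑_i v_i = 1` almost everywhere, `v_i ≥ 0` measurable, `u` integrable
and `φ` bounded measurable, then `∫ u • φ = ∑_i ∫ (v_i * u) • φ`. -/
theorem wU1_hasSum_integral {ι : Type*} [Countable ι] {v : ι → X → ℝ}
    (hvm : ∀ i, Measurable (v i)) (hv0 : ∀ i x, 0 ≤ v i x)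
    (hv : ∀ᵐ x ∂μ, HasSum (fun i => v i x) 1) {u : X → ℝ} (hu : Integrable u μ)
    {φ : X → E} (hφm : AEStronglyMeasurable φ μ) (hφb : ∃ C, ∀ x, ‖φ x‖ ≤ C) :
    HasSum (fun i => ∫ x, (v i x * u x) • φ x ∂μ) (∫ x, u x • φ x ∂μ) := by
  obtain ⟨C₀, hC₀⟩ := hφb
  set C : ℝ := |C₀| with hCdef
  have hC : ∀ x, ‖φ x‖ ≤ C := fun x => (hC₀ x).trans (le_abs_self C₀)
  have hC0 : 0 ≤ C := abs_nonneg _
  refine hasSum_integral_of_dominated_convergence (fun i x => v i x * (|u x| * C)) ?_ ?_ ?_ ?_ ?_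
  · intro i
    exact (((hvm i).aestronglyMeasurable).mul hu.aestronglyMeasurable).smul hφm
  · intro i
    refine Filter.Eventually.of_forall fun x => ?_
    rw [norm_smul, Real.norm_eq_abs, abs_mul, abs_of_nonneg (hv0 i x), mul_assoc]
    exact mul_le_mul_of_nonneg_left
      (mul_le_mul_of_nonneg_left (hC x) (abs_nonneg _)) (hv0 i x)
  · filter_upwards [hv] with x hx
    exact (hx.summable).mul_right _
  · have h1 : Integrable (fun x => |u x| * C) μ := (hu.abs).mul_const C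
    refine h1.congr ?_
    filter_upwards [hv] with x hx
    rw [tsum_mul_right, hx.tsum_eq, one_mul]
  · filter_upwards [hv] with x hx
    have := (hx.mul_right (u x)).smul_const (φ x)
    simpa using this

end general

section action

variable {G X : Type*} [Group G] [MulAction G X] [MeasurableSpace X] [MeasurableConstSMul G X]
  {μ : Measure X} [SMulInvariantMeasure G X μ]
  {E : Type*} [NormedAddCommGroup E] [NormedSpace ℝ E]

omit [MeasurableConstSMul G X] [SMulInvariantMeasure G X μ] in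
/-- integrability of `w • φ` for bounded measurable `φ`
(= `IsWeight.integrable_smul` of `Weights.lean`). -/
theorem wU1_integrable_smul {Δ : Subgroup G} {w : X → ℝ} (hw : IsWeight μ Δ w)
    {φ : X → E} (hφm : AEStronglyMeasurable φ μ) (hφb : ∃ C, ∀ x, ‖φ x‖ ≤ C) :
    Integrable (fun x => w x • φ x) μ :=
  wU1_integrable_smul_of_integrable hw.integrable hφm hφb

omit [MeasurableConstSMul G X] [SMulInvariantMeasure G X μ] in
/-- the sum over the inverses. -/
theorem wU1_hasSum_inv {Δ : Subgroup G} {w : X → ℝ} (hw : IsWeight μ Δ w) :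
    ∀ᵐ x ∂μ, HasSum (fun δ : Δ => w (((δ : G)⁻¹) • x)) 1 := by
  filter_upwards [hw.hasSum] with x hx
  have := (Equiv.inv Δ).hasSum_iff.mpr hx
  simpa [Function.comp_def] using this

/-- (U1) unfolding: the integral of an invariant function against a weight does not depend on
the weight (= `IsWeight.integral_smul_eq` of `Weights.lean`). -/
theorem wU1_integral_smul_eq {Δ : Subgroup G} [Countable Δ] {w w' : X → ℝ}
    (hw : IsWeight μ Δ w) (hw' : IsWeight μ Δ w')
    {φ : X → E} (hφm : AEStronglyMeasurable φ μ) (hφb : ∃ C, ∀ x, ‖φ x‖ ≤ C)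
    (hφ : ∀ δ ∈ Δ, ∀ x, φ (δ • x) = φ x) :
    ∫ x, w x • φ x ∂μ = ∫ x, w' x • φ x ∂μ := by
  -- `∫ w φ = ∑_δ ∫ w'(δ x) w(x) φ(x)`
  have h1 : HasSum (fun δ : Δ => ∫ x, (w' ((δ : G) • x) * w x) • φ x ∂μ)
      (∫ x, w x • φ x ∂μ) :=
    wU1_hasSum_integral (v := fun δ : Δ => fun x => w' ((δ : G) • x))
      (fun δ => hw'.measurable.comp (measurable_const_smul (δ : G)))
      (fun δ x => hw'.nonneg _) hw'.hasSum hw.integrable hφm hφb
  -- `∫ w' φ = ∑_δ ∫ w(δ⁻¹ x) w'(x) φ(x)`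
  have h2 : HasSum (fun δ : Δ => ∫ x, (w (((δ : G)⁻¹) • x) * w' x) • φ x ∂μ)
      (∫ x, w' x • φ x ∂μ) :=
    wU1_hasSum_integral (v := fun δ : Δ => fun x => w (((δ : G)⁻¹) • x))
      (fun δ => hw.measurable.comp (measurable_const_smul ((δ : G)⁻¹)))
      (fun δ x => hw.nonneg _) (wU1_hasSum_inv hw) hw'.integrable hφm hφb
  -- termwise equality by the change of variables `x ↦ δ⁻¹ x`
  have h3 : ∀ δ : Δ, ∫ x, (w' ((δ : G) • x) * w x) • φ x ∂μ
      = ∫ x, (w (((δ : G)⁻¹) • x) * w' x) • φ x ∂μ := by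
    intro δ
    rw [← integral_smul_eq_self (μ := μ) (fun x => (w' ((δ : G) • x) * w x) • φ x)
      (g := (δ : G)⁻¹)]
    refine integral_congr_ae (Filter.Eventually.of_forall fun x => ?_)
    have hinv : ((δ : G)⁻¹) ∈ Δ := Δ.inv_mem δ.2
    simp only [smul_inv_smul, hφ _ hinv x]
    rw [mul_comm]
  have h4 : (fun δ : Δ => ∫ x, (w' ((δ : G) • x) * w x) • φ x ∂μ)
      = fun δ : Δ => ∫ x, (w (((δ : G)⁻¹) • x) * w' x) • φ x ∂μ := funext h3
  rw [h4] at h1
  exact h1.unique h2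

end action

end Fermat.Agent.Pet
end MergeWrap_Lib_Petersson_WeightsU1

section MergeWrap_Lib_Petersson_WeightsKey -- from Lib/Petersson/WeightsKey.lean

/-!
# Lib/Petersson/WeightsKey: conjugation, finite index and the key theorem (helper47)

For helper33's `Weights.lean`, with the exact statements of the stubs there:
* `wK_conj`           = (U2) `IsWeight.conj`;
* `wK_of_le`          = (U3) `IsWeight.of_le`;
* `wK_mean_comp_smul` = the key theorem `mean_comp_smul`.
-/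

set_option autoImplicit false
set_option linter.style.haveILetI false

namespace Fermat.Agent.Pet

open MeasureTheory

/-! ## Sums over a product with a finite first factor -/

/-- a nonnegative family on `ι × κ`, `ι` finite, is summable fibre by fibre. -/
theorem wK_hasSum_prod {ι κ : Type*} [Fintype ι] {F : ι × κ → ℝ} (hF0 : ∀ p, 0 ≤ F p)
    {a : ι → ℝ} (h : ∀ i, HasSum (fun k => F (i, k)) (a i)) : HasSum F (∑ i, a i) := by
  have hs : Summable F := by
    rw [summable_prod_of_nonneg (f := F) (fun p => hF0 p)]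
    exact ⟨fun i => (h i).summable, Summable.of_finite⟩
  have h2 := hs.tsum_prod' (fun i => (h i).summable)
  have h3 : ∑' i, ∑' k, F (i, k) = ∑ i, a i := by
    rw [tsum_fintype]
    exact Finset.sum_congr rfl (fun i _ => (h i).tsum_eq)
  rw [← h3, ← h2]
  exact hs.hasSum

/-! ## The coset decomposition -/

/-- `(L, h) ↦ (out L) * h` is a bijection `(Δ ⧸ H) × H ≃ Δ`. -/
noncomputable def wK_cosetEquiv {D : Type*} [Group D] (H : Subgroup D) : (D ⧸ H) × H ≃ D where
  toFun p := p.1.out * (p.2 : D)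
  invFun g := ((g : D ⧸ H), ⟨((g : D ⧸ H)).out⁻¹ * g, by
    rw [← QuotientGroup.eq]
    exact QuotientGroup.out_eq' _⟩)
  left_inv := by
    rintro ⟨L, h⟩
    have h1 : ((L.out * (h : D) : D) : D ⧸ H) = L := by
      rw [QuotientGroup.mk_mul_of_mem _ h.2]
      exact QuotientGroup.out_eq' L
    refine Prod.ext h1 ?_
    apply Subtype.ext
    show ((L.out * (h : D) : D) : D ⧸ H).out⁻¹ * (L.out * (h : D)) = h
    rw [h1]
    group
  right_inv := by
    intro g
    show ((g : D ⧸ H)).out * (((g : D ⧸ H)).out⁻¹ * g) = g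
    group

section action

variable {G X : Type*} [Group G] [MulAction G X] [MeasurableSpace X] [MeasurableConstSMul G X]
  {μ : Measure X} [SMulInvariantMeasure G X μ]
  {E : Type*} [NormedAddCommGroup E] [NormedSpace ℝ E]

/-- (U2) conjugation. -/
theorem wK_conj {Δ : Subgroup G} {w : X → ℝ} (hw : IsWeight μ Δ w) (β : G) :
    IsWeight μ (Δ.map (MulAut.conj β).toMonoidHom) (fun x => w (β⁻¹ • x)) where
  measurable := hw.measurable.comp (measurable_const_smul β⁻¹)
  nonneg := fun x => hw.nonneg _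
  integrable := (measurePreserving_smul β⁻¹ μ).integrable_comp_of_integrable hw.integrable
  hasSum := by
    filter_upwards [(tendsto_smul_ae μ β⁻¹).eventually hw.hasSum] with x hx
    have hinj : Function.Injective (MulAut.conj β).toMonoidHom := (MulAut.conj β).injective
    let e : Δ ≃ Δ.map (MulAut.conj β).toMonoidHom :=
      (Δ.equivMapOfInjective _ hinj).toEquiv
    refine (e.hasSum_iff).mp ?_
    have hfun : ((fun δ' : Δ.map (MulAut.conj β).toMonoidHom => w (β⁻¹ • (δ' : G) • x)) ∘ e)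
        = fun δ : Δ => w ((δ : G) • β⁻¹ • x) := by
      funext δ
      have he : ((e δ : Δ.map (MulAut.conj β).toMonoidHom) : G) = β * (δ : G) * β⁻¹ := rfl
      simp only [Function.comp_apply, he, smul_smul]
      congr 2
      group
    rw [hfun]
    exact hx

omit [MeasurableConstSMul G X] in
/-- (U3) a weight for a subgroup of finite index gives a weight for the big group. -/
theorem wK_of_le {Δ' Δ : Subgroup G} [Countable Δ] (h : Δ' ≤ Δ)
    (hn : Δ'.relIndex Δ ≠ 0) {w : X → ℝ} (hw : IsWeight μ Δ' w) :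
    IsWeight μ Δ (fun x => w x / (Δ'.relIndex Δ : ℝ)) where
  measurable := hw.measurable.div_const _
  nonneg := fun x => div_nonneg (hw.nonneg x) (Nat.cast_nonneg _)
  integrable := hw.integrable.div_const _
  hasSum := by
    classical
    set H : Subgroup Δ := Δ'.subgroupOf Δ with hH
    have hfin : Finite (Δ ⧸ H) := Nat.finite_of_card_ne_zero hn
    letI : Fintype (Δ ⧸ H) := Fintype.ofFinite _
    have hcard : (Fintype.card (Δ ⧸ H) : ℝ) = (Δ'.relIndex Δ : ℝ) := by
      rw [← Nat.card_eq_fintype_card]; rfl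
    have hn' : ((Δ'.relIndex Δ : ℕ) : ℝ) ≠ 0 := Nat.cast_ne_zero.mpr hn
    -- for almost every `x`, all the points `(out L)⁻¹ x` are good
    have hgood : ∀ᵐ x ∂μ, ∀ L : Δ ⧸ H,
        HasSum (fun δ : Δ' => w ((δ : G) • (((L.out : Δ) : G)⁻¹ • x))) 1 := by
      rw [ae_all_iff]
      intro L
      exact (tendsto_smul_ae μ (((L.out : Δ) : G)⁻¹)).eventually hw.hasSum
    filter_upwards [hgood] with x hx
    -- reindex by `g ↦ g⁻¹` and by the coset decomposition
    refine ((Equiv.inv Δ).hasSum_iff).mp ?_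
    refine ((wK_cosetEquiv H).hasSum_iff).mp ?_
    have hone : (1 : ℝ) = ∑ _L : Δ ⧸ H, (1 / (Δ'.relIndex Δ : ℝ)) := by
      rw [Finset.sum_const, Finset.card_univ, nsmul_eq_mul, hcard]
      field_simp
    rw [hone]
    refine wK_hasSum_prod (fun p => div_nonneg (hw.nonneg _) (Nat.cast_nonneg _)) ?_
    intro L
    -- the fibre over `L`
    have h1 := hx L
    let e : H ≃ Δ' := (Subgroup.subgroupOfEquivOfLe h).toEquiv
    have h2 : HasSum (fun k : H => w ((((k : Δ) : G))⁻¹ • (((L.out : Δ) : G)⁻¹ • x))) 1 := by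
      have h3 := ((Equiv.inv Δ').hasSum_iff).mpr h1
      have h4 := (e.hasSum_iff).mpr h3
      exact h4
    have h5 := h2.div_const (Δ'.relIndex Δ : ℝ)
    have hfun : ∀ k : H,
        w ((((Equiv.inv Δ) ((wK_cosetEquiv H) (L, k)) : Δ) : G) • x) / (Δ'.relIndex Δ : ℝ)
          = w ((((k : Δ) : G))⁻¹ • (((L.out : Δ) : G)⁻¹ • x)) / (Δ'.relIndex Δ : ℝ) := by
      intro k
      have hk : (((Equiv.inv Δ) ((wK_cosetEquiv H) (L, k)) : Δ) : G)
          = ((k : Δ) : G)⁻¹ * ((L.out : Δ) : G)⁻¹ := by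
        simp [wK_cosetEquiv]
      rw [hk, mul_smul]
    show HasSum (fun k : H =>
      w ((((Equiv.inv Δ) ((wK_cosetEquiv H) (L, k)) : Δ) : G) • x) / (Δ'.relIndex Δ : ℝ)) _
    simp_rw [hfun]
    exact h5

/-- **Key theorem**: the mean is invariant under "commensurators". -/
theorem wK_mean_comp_smul {Δ₁ Δ₂ : Subgroup G} [Countable Δ₁] [Countable Δ₂] {w₁ w₂ : X → ℝ}
    (hw₁ : IsWeight μ Δ₁ w₁) (hw₂ : IsWeight μ Δ₂ w₂) (β : G)
    (hβ : Δ₂.map (MulAut.conj β).toMonoidHom ≤ Δ₁)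
    (hfin : (Δ₂.map (MulAut.conj β).toMonoidHom).relIndex Δ₁ ≠ 0)
    {φ : X → E} (hφm : AEStronglyMeasurable φ μ) (hφb : ∃ C, ∀ x, ‖φ x‖ ≤ C)
    (hφ : ∀ δ ∈ Δ₁, ∀ x, φ (δ • x) = φ x) :
    mean μ w₂ (fun x => φ (β • x)) = mean μ w₁ φ := by
  set n : ℝ := ((Δ₂.map (MulAut.conj β).toMonoidHom).relIndex Δ₁ : ℝ) with hn
  have hn0 : n ≠ 0 := Nat.cast_ne_zero.mpr hfin
  have hw₃ : IsWeight μ Δ₁ (fun x => w₂ (β⁻¹ • x) / n) := wK_of_le hβ hfin (wK_conj hw₂ β)
  -- (U1) twice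
  have h1 : ∫ x, (w₂ (β⁻¹ • x) / n) • φ x ∂μ = ∫ x, w₁ x • φ x ∂μ :=
    wU1_integral_smul_eq hw₃ hw₁ hφm hφb hφ
  have h2 : ∫ x, (w₂ (β⁻¹ • x) / n) • (1 : ℝ) ∂μ = ∫ x, w₁ x • (1 : ℝ) ∂μ :=
    wU1_integral_smul_eq (φ := fun _ => (1 : ℝ)) hw₃ hw₁ aestronglyMeasurable_const
      ⟨1, fun _ => by simp⟩ (fun _ _ _ => rfl)
  simp only [smul_eq_mul, mul_one] at h2
  -- pull out the constant and change variables
  have h3 : ∫ x, (w₂ (β⁻¹ • x) / n) • φ x ∂μ = n⁻¹ • ∫ x, w₂ x • φ (β • x) ∂μ := by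
    have e1 : (fun x => (w₂ (β⁻¹ • x) / n) • φ x) = fun x => n⁻¹ • (w₂ (β⁻¹ • x) • φ x) := by
      funext x
      rw [div_eq_inv_mul, mul_smul]
    rw [e1, integral_smul]
    congr 1
    rw [← integral_smul_eq_self (μ := μ) (fun x => w₂ (β⁻¹ • x) • φ x) (g := β)]
    simp only [inv_smul_smul]
  have h4 : ∫ x, w₂ (β⁻¹ • x) / n ∂μ = n⁻¹ * ∫ x, w₂ x ∂μ := by
    have e1 : (fun x => w₂ (β⁻¹ • x) / n) = fun x => n⁻¹ * w₂ (β⁻¹ • x) := by
      funext x
      rw [div_eq_inv_mul]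
    rw [e1, integral_const_mul]
    congr 1
    rw [← integral_smul_eq_self (μ := μ) (fun x => w₂ (β⁻¹ • x)) (g := β)]
    simp only [inv_smul_smul]
  unfold mean
  rw [← h1, ← h2, h3, h4, mul_inv, inv_inv, smul_smul]
  congr 1
  field_simp

end action

end Fermat.Agent.Pet
end MergeWrap_Lib_Petersson_WeightsKey

section MergeWrap_Lib_Petersson_Weights -- from Lib/Petersson/Weights.lean

/-!
# Lib/Petersson/Weights: unfolding for weights (owner: helper33)
-/

namespace Fermat.Agent.Pet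

open MeasureTheory

/-- `(A ⧸ H) × H ≃ A`, `(c, h) ↦ c.out * h`. -/
noncomputable def cosetProdEquiv {A : Type*} [Group A] (H : Subgroup A) : (A ⧸ H) × H ≃ A where
  toFun p := p.1.out * p.2
  invFun g := ((g : A ⧸ H), ⟨((g : A ⧸ H)).out⁻¹ * g,
    QuotientGroup.eq.1 (QuotientGroup.out_eq' (g : A ⧸ H))⟩)
  left_inv := by
    rintro ⟨c, h⟩
    have h1 : ((c.out * (h : A) : A) : A ⧸ H) = c := by
      rw [QuotientGroup.mk_mul_of_mem _ h.2, QuotientGroup.out_eq']
    ext
    · exact h1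
    · simp [h1]
  right_inv := by
    intro g
    simp

@[simp] theorem cosetProdEquiv_apply {A : Type*} [Group A] (H : Subgroup A) (p : (A ⧸ H) × H) :
    cosetProdEquiv H p = p.1.out * p.2 := rfl

variable {G X : Type*} [Group G] [MulAction G X] [MeasurableSpace X] [MeasurableConstSMul G X]
  {μ : Measure X} [SMulInvariantMeasure G X μ]
  {E : Type*} [NormedAddCommGroup E] [NormedSpace ℝ E]

/-- integrability of `w • φ` for bounded measurable `φ` (helper47, `WeightsU1`). -/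
theorem IsWeight.integrable_smul {Δ : Subgroup G} {w : X → ℝ} (hw : IsWeight μ Δ w)
    {φ : X → E} (hφm : AEStronglyMeasurable φ μ) (hφb : ∃ C, ∀ x, ‖φ x‖ ≤ C) :
    Integrable (fun x => w x • φ x) μ :=
  wU1_integrable_smul hw hφm hφb

/-- (U1) unfolding: the integral of an invariant function against a weight does not depend on
the weight (helper47, `WeightsU1`). -/
theorem IsWeight.integral_smul_eq {Δ : Subgroup G} [Countable Δ] {w w' : X → ℝ}
    (hw : IsWeight μ Δ w) (hw' : IsWeight μ Δ w')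
    {φ : X → E} (hφm : AEStronglyMeasurable φ μ) (hφb : ∃ C, ∀ x, ‖φ x‖ ≤ C)
    (hφ : ∀ δ ∈ Δ, ∀ x, φ (δ • x) = φ x) :
    ∫ x, w x • φ x ∂μ = ∫ x, w' x • φ x ∂μ :=
  wU1_integral_smul_eq hw hw' hφm hφb hφ

/-- (U2) conjugation. -/
theorem IsWeight.conj {Δ : Subgroup G} {w : X → ℝ} (hw : IsWeight μ Δ w) (β : G) :
    IsWeight μ (Δ.map (MulAut.conj β).toMonoidHom) (fun x => w (β⁻¹ • x)) :=
  wK_conj hw β

/-- (U3) a weight for a subgroup of finite index gives a weight for the big group. -/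
theorem IsWeight.of_le {Δ' Δ : Subgroup G} [Countable Δ] (h : Δ' ≤ Δ)
    (hn : Δ'.relIndex Δ ≠ 0) {w : X → ℝ} (hw : IsWeight μ Δ' w) :
    IsWeight μ Δ (fun x => w x / (Δ'.relIndex Δ : ℝ)) :=
  wK_of_le h hn hw

/-- (U4) a weight for the big group gives a weight for a subgroup of finite index. -/
theorem IsWeight.exists_of_ge {Δ Δ₀ : Subgroup G} [Countable Δ₀] (h : Δ ≤ Δ₀)
    (hn : Δ.relIndex Δ₀ ≠ 0) {w₀ : X → ℝ} (hw : IsWeight μ Δ₀ w₀) :
    ∃ w, IsWeight μ Δ w := by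
  classical
  set H : Subgroup Δ₀ := Δ.subgroupOf Δ₀ with hH
  have hfin : H.FiniteIndex := ⟨hn⟩
  let _ : Fintype (Δ₀ ⧸ H) := Subgroup.fintypeQuotientOfFiniteIndex
  refine ⟨fun x => ∑ c : Δ₀ ⧸ H, w₀ (((c.out : Δ₀) : G) • x), ?_, ?_, ?_, ?_⟩
  · exact Finset.measurable_sum _ fun c _ => hw.measurable.comp (measurable_const_smul _)
  · intro x
    exact Finset.sum_nonneg fun c _ => hw.nonneg _
  · refine integrable_finsetSum _ fun c _ => ?_
    exact (measurePreserving_smul ((c.out : Δ₀) : G) μ).integrable_comp_of_integrable hw.integrable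
  · filter_upwards [hw.hasSum] with x hx
    -- reindex
    have h1 : HasSum (fun q : (Δ₀ ⧸ H) × H => w₀ (((q.1.out * (q.2 : Δ₀) : Δ₀) : G) • x)) 1 := by
      have := (Equiv.hasSum_iff (cosetProdEquiv H)).2 hx
      exact this
    have h2 : HasSum (fun q : H × (Δ₀ ⧸ H) => w₀ (((q.2.out * (q.1 : Δ₀) : Δ₀) : G) • x)) 1 :=
      (Equiv.hasSum_iff (Equiv.prodComm H (Δ₀ ⧸ H))).2 h1
    have h3 : HasSum (fun a : H => ∑ c : Δ₀ ⧸ H, w₀ (((c.out * (a : Δ₀) : Δ₀) : G) • x)) 1 :=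
      h2.prod_fiberwise fun a => hasSum_fintype _
    have h4 := (Equiv.hasSum_iff (Subgroup.subgroupOfEquivOfLe h).toEquiv.symm).2 h3
    convert h4 using 1
    funext δ
    simp only [Function.comp_apply]
    refine Finset.sum_congr rfl fun c _ => ?_
    rw [← mul_smul]
    congr 2


/-- for a.e. `x`, a property that holds a.e. holds along the whole orbit. -/
theorem ae_forall_smul {Δ : Subgroup G} [Countable Δ] {P : X → Prop} (hP : ∀ᵐ x ∂μ, P x) :
    ∀ᵐ x ∂μ, ∀ δ : Δ, P ((δ : G) • x) := by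
  rw [ae_all_iff]
  intro δ
  exact (measurePreserving_smul (δ : G) μ).quasiMeasurePreserving.tendsto_ae.eventually hP

theorem IsWeight.integral_pos {Δ : Subgroup G} [Countable Δ] {w : X → ℝ}
    (hw : IsWeight μ Δ w) (hμ : μ ≠ 0) : 0 < ∫ x, w x ∂μ := by
  have h0 : 0 ≤ ∫ x, w x ∂μ := integral_nonneg hw.nonneg
  rcases h0.lt_or_eq with h | h
  · exact h
  exfalso
  have hw0 : w =ᵐ[μ] 0 := (integral_eq_zero_iff_of_nonneg hw.nonneg hw.integrable).1 h.symm
  have h1 : ∀ᵐ x ∂μ, ∀ δ : Δ, w ((δ : G) • x) = 0 := ae_forall_smul (Δ := Δ) hw0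
  have h2 : ∀ᵐ x ∂μ, False := by
    filter_upwards [h1, hw.hasSum] with x hx hs
    have : HasSum (fun δ : Δ => w ((δ : G) • x)) 0 := by
      simp only [hx]; exact hasSum_zero
    exact zero_ne_one (this.unique hs)
  rw [Filter.eventually_false_iff_eq_bot, ae_eq_bot] at h2
  exact hμ h2

theorem IsWeight.eq_zero_of_integral_eq_zero [TopologicalSpace X] [OpensMeasurableSpace X]
    [μ.IsOpenPosMeasure] {Δ : Subgroup G} [Countable Δ] {w : X → ℝ} (hw : IsWeight μ Δ w)
    {ψ : X → ℝ} (hψc : Continuous ψ) (hψ0 : ∀ x, 0 ≤ ψ x) (hψb : ∃ C, ∀ x, ψ x ≤ C)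
    (hψ : ∀ δ ∈ Δ, ∀ x, ψ (δ • x) = ψ x) (h0 : ∫ x, w x * ψ x ∂μ = 0) : ∀ x, ψ x = 0 := by
  by_contra hne
  obtain ⟨x₀, hx₀⟩ := not_forall.1 hne
  have hint : Integrable (fun x => w x * ψ x) μ := by
    have := wU1_integrable_smul hw (φ := ψ) hψc.aestronglyMeasurable (by
      obtain ⟨C, hC⟩ := hψb
      refine ⟨C, fun x => ?_⟩
      rw [Real.norm_eq_abs, abs_of_nonneg (hψ0 x)]
      exact hC x)
    simpa [smul_eq_mul] using this
  have hz : (fun x => w x * ψ x) =ᵐ[μ] 0 :=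
    (integral_eq_zero_iff_of_nonneg (fun x => mul_nonneg (hw.nonneg x) (hψ0 x)) hint).1 h0
  have h1 : ∀ᵐ x ∂μ, ∀ δ : Δ, w ((δ : G) • x) * ψ ((δ : G) • x) = 0 :=
    ae_forall_smul (Δ := Δ) hz
  have hU : IsOpen {x | ψ x ≠ 0} := isOpen_ne_fun hψc continuous_const
  have hUpos : 0 < μ {x | ψ x ≠ 0} := hU.measure_pos μ ⟨x₀, hx₀⟩
  have h2 : ∀ᵐ x ∂μ, x ∉ {x | ψ x ≠ 0} := by
    filter_upwards [h1, hw.hasSum] with x hx hs hxU
    have : HasSum (fun δ : Δ => w ((δ : G) • x)) 0 := by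
      have : ∀ δ : Δ, w ((δ : G) • x) = 0 := by
        intro δ
        have h3 := hx δ
        rw [hψ δ δ.2 x] at h3
        rcases mul_eq_zero.1 h3 with h | h
        · exact h
        · exact absurd h hxU
      simp only [this]; exact hasSum_zero
    exact zero_ne_one (this.unique hs)
  have : μ {x | ψ x ≠ 0} = 0 := by
    rw [← compl_compl {x | ψ x ≠ 0}]
    exact h2
  exact hUpos.ne' this


omit [MeasurableConstSMul G X] [SMulInvariantMeasure G X μ] in
theorem IsWeight.mean_add {Δ : Subgroup G} {w : X → ℝ} (hw : IsWeight μ Δ w)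
    {φ ψ : X → E} (hφm : AEStronglyMeasurable φ μ) (hφb : ∃ C, ∀ x, ‖φ x‖ ≤ C)
    (hψm : AEStronglyMeasurable ψ μ) (hψb : ∃ C, ∀ x, ‖ψ x‖ ≤ C) :
    mean μ w (fun x => φ x + ψ x) = mean μ w φ + mean μ w ψ := by
  unfold mean
  rw [← smul_add, ← integral_add (wU1_integrable_smul hw hφm hφb) (wU1_integrable_smul hw hψm hψb)]
  simp only [smul_add]

omit [MeasurableConstSMul G X] [SMulInvariantMeasure G X μ] in
theorem IsWeight.mean_finset_sum {Δ : Subgroup G} {w : X → ℝ} (hw : IsWeight μ Δ w)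
    {ι : Type*} (s : Finset ι) {φ : ι → X → E} (hφm : ∀ i ∈ s, AEStronglyMeasurable (φ i) μ)
    (hφb : ∀ i ∈ s, ∃ C, ∀ x, ‖φ i x‖ ≤ C) :
    mean μ w (fun x => ∑ i ∈ s, φ i x) = ∑ i ∈ s, mean μ w (φ i) := by
  unfold mean
  rw [← Finset.smul_sum, ← integral_finsetSum s
    (fun i hi => wU1_integrable_smul hw (hφm i hi) (hφb i hi))]
  simp only [Finset.smul_sum]


/-- **Key theorem**: the mean is invariant under "commensurators".  With `β = 1` this is the
independence of the level, with `β ∈ Δ₁ = Δ₂` normalising it is the invariance under the big group,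
and with `β = diag(p, 1)` it is the heart of the self-adjointness of `T_p`. -/
theorem mean_comp_smul {Δ₁ Δ₂ : Subgroup G} [Countable Δ₁] [Countable Δ₂] {w₁ w₂ : X → ℝ}
    (hw₁ : IsWeight μ Δ₁ w₁) (hw₂ : IsWeight μ Δ₂ w₂) (β : G)
    (hβ : Δ₂.map (MulAut.conj β).toMonoidHom ≤ Δ₁)
    (hfin : (Δ₂.map (MulAut.conj β).toMonoidHom).relIndex Δ₁ ≠ 0)
    {φ : X → E} (hφm : AEStronglyMeasurable φ μ) (hφb : ∃ C, ∀ x, ‖φ x‖ ≤ C)
    (hφ : ∀ δ ∈ Δ₁, ∀ x, φ (δ • x) = φ x) :
    mean μ w₂ (fun x => φ (β • x)) = mean μ w₁ φ :=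
  wK_mean_comp_smul hw₁ hw₂ β hβ hfin hφm hφb hφ

end Fermat.Agent.Pet
end MergeWrap_Lib_Petersson_Weights

section MergeWrap_Lib_Petersson_FdBasic -- from Lib/Petersson/FdBasic.lean

/-!
# Lib/Petersson/FdBasic: the standard fundamental domain gives a weight for `SL(2, ℤ)`
(owner: helper54)

`volume` on `ℍ` is `(volume.comap coe).withDensity (1 / y^2)` (`UpperHalfPlane.volume_def`,
`UpperHalfPlane.volume_eq_lintegral`).  `𝒟 ⊆ {|x| ≤ 1/2, 1/2 ≤ y}`,
`𝒟 \ 𝒟ᵒ ⊆ {|z| = 1} ∪ {|x| = 1/2}` (null sets).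
For almost every `τ` (those whose orbit misses `𝒟 \ 𝒟ᵒ`) there are exactly two `γ` with
`γ • τ ∈ 𝒟`, and they have different images in `GL(2, ℝ)`.
-/

namespace Fermat.Agent.Pet

open MeasureTheory UpperHalfPlane ModularGroup

open scoped MatrixGroups Modular

/-- `SL(2, ℤ)` is countable. -/
theorem countable_SL2Z : Countable SL(2, ℤ) := by
  have : Countable (Matrix (Fin 2) (Fin 2) ℤ) :=
    inferInstanceAs (Countable (Fin 2 → Fin 2 → ℤ))
  exact Subtype.countable (p := fun A : Matrix (Fin 2) (Fin 2) ℤ => A.det = 1)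

/-- the hyperbolic measure charges every nonempty open set. -/
theorem isOpenPosMeasure_upperHalfPlane : (volume : Measure ℍ).IsOpenPosMeasure := by
  refine ⟨fun U hU hne => ?_⟩
  rw [volume_eq_lintegral]
  have hopen : IsOpen ((↑) '' U : Set ℂ) := UpperHalfPlane.isOpenEmbedding_coe.isOpenMap U hU
  have hpos : 0 < volume ((↑) '' U : Set ℂ) := hopen.measure_pos volume (hne.image _)
  have hmeas : Measurable (fun z : ℂ => ((((1 / ‖z.im‖₊) ^ 2 : NNReal)) : ENNReal)) := by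
    fun_prop
  rw [← pos_iff_ne_zero, lintegral_pos_iff_support hmeas,
    Measure.restrict_apply (measurableSet_support hmeas)]
  refine lt_of_lt_of_le hpos (measure_mono ?_)
  rintro z ⟨τ, hτ, rfl⟩
  refine ⟨?_, τ, hτ, rfl⟩
  simp only [Function.mem_support, ne_eq, ENNReal.coe_eq_zero]
  simpa using τ.im_ne_zero

theorem fd_im_ge_half {τ : ℍ} (h : τ ∈ 𝒟) : (1 / 2 : ℝ) ≤ τ.im := by
  have h3 := three_le_four_mul_im_sq_of_mem_fd h
  by_contra hlt
  rw [not_le] at hlt
  have hpos := τ.im_pos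
  nlinarith

theorem fd_lintegral_Ici_half_lt_top :
    (∫⁻ y : ℝ, (Set.Ici (1 / 2 : ℝ)).indicator
      (fun y => (((1 / ‖y‖₊) ^ 2 : NNReal) : ENNReal)) y) < ⊤ := by
  rw [lintegral_indicator measurableSet_Ici]
  have hint : IntegrableOn (fun t : ℝ => t ^ (-2 : ℝ)) (Set.Ioi (1 / 2 : ℝ)) :=
    integrableOn_Ioi_rpow_of_lt (by norm_num) (by norm_num)
  have hint' : IntegrableOn (fun t : ℝ => t ^ (-2 : ℝ)) (Set.Ici (1 / 2 : ℝ)) :=
    Iff.mpr integrableOn_Ici_iff_integrableOn_Ioi hint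
  have h1 := hint'.lintegral_lt_top
  refine lt_of_le_of_lt (le_of_eq ?_) h1
  refine setLIntegral_congr_fun measurableSet_Ici (fun y hy => ?_)
  have hy0 : (0 : ℝ) < y := lt_of_lt_of_le (by norm_num) (Set.mem_Ici.mp hy)
  rw [ENNReal.ofReal, ENNReal.coe_inj]
  ext
  simp only [NNReal.coe_pow, NNReal.coe_div, NNReal.coe_one, coe_nnnorm, Real.norm_eq_abs,
    abs_of_pos hy0]
  rw [Real.coe_toNNReal _ (Real.rpow_nonneg hy0.le _)]
  rw [show (-2 : ℝ) = ((-2 : ℤ) : ℝ) by norm_num, Real.rpow_intCast]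
  simp [zpow_neg]

/-- (F1) the standard fundamental domain has finite hyperbolic area. -/
theorem volume_fd_lt_top : volume (𝒟 : Set ℍ) < ⊤ := by
  rw [volume_eq_lintegral]
  set S : Set ℂ := {z | z.re ∈ Set.Icc (-(1 / 2) : ℝ) (1 / 2) ∧ z.im ∈ Set.Ici (1 / 2 : ℝ)}
    with hS
  have hsub : (↑) '' (𝒟 : Set ℍ) ⊆ S := by
    rintro z ⟨τ, hτ, rfl⟩
    refine ⟨?_, fd_im_ge_half hτ⟩
    have := hτ.2
    rw [abs_le] at this
    exact ⟨by simpa using this.1, by simpa using this.2⟩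
  refine lt_of_le_of_lt (lintegral_mono_set hsub) ?_
  have hSm : MeasurableSet S := by
    apply MeasurableSet.inter
    · exact measurableSet_Icc.preimage Complex.measurable_re
    · exact measurableSet_Ici.preimage Complex.measurable_im
  rw [← lintegral_indicator hSm]
  set G : ℝ × ℝ → ENNReal := fun p =>
    (Set.Icc (-(1 / 2) : ℝ) (1 / 2)).indicator 1 p.1 *
      (Set.Ici (1 / 2 : ℝ)).indicator (fun y => (((1 / ‖y‖₊) ^ 2 : NNReal) : ENNReal)) p.2
    with hG
  have e : (fun z : ℂ => S.indicator (fun z : ℂ => (((1 / ‖z.im‖₊) ^ 2 : NNReal) : ENNReal)) z)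
      = fun z => G (Complex.measurableEquivRealProd z) := by
    funext z
    by_cases h1 : z.re ∈ Set.Icc (-(1 / 2) : ℝ) (1 / 2) <;>
      by_cases h2 : z.im ∈ Set.Ici (1 / 2 : ℝ)
    · have hz : z ∈ S := ⟨h1, h2⟩
      rw [Set.indicator_of_mem hz]
      simp only [hG, Complex.measurableEquivRealProd_apply]
      rw [Set.indicator_of_mem h1, Set.indicator_of_mem h2]
      simp
    · have hz : z ∉ S := fun h => h2 h.2
      rw [Set.indicator_of_notMem hz]
      simp only [hG, Complex.measurableEquivRealProd_apply]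
      rw [Set.indicator_of_notMem h2, mul_zero]
    · have hz : z ∉ S := fun h => h1 h.1
      rw [Set.indicator_of_notMem hz]
      simp only [hG, Complex.measurableEquivRealProd_apply]
      rw [Set.indicator_of_notMem h1, zero_mul]
    · have hz : z ∉ S := fun h => h1 h.1
      rw [Set.indicator_of_notMem hz]
      simp only [hG, Complex.measurableEquivRealProd_apply]
      rw [Set.indicator_of_notMem h1, zero_mul]
  rw [e, Complex.volume_preserving_equiv_real_prod.lintegral_comp_emb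
    Complex.measurableEquivRealProd.measurableEmbedding G]
  rw [hG]
  rw [show (volume : Measure (ℝ × ℝ)) = (volume : Measure ℝ).prod (volume : Measure ℝ) from rfl]
  rw [lintegral_prod_mul]
  · rw [lintegral_indicator_one measurableSet_Icc]
    refine ENNReal.mul_lt_top ?_ fd_lintegral_Ici_half_lt_top
    rw [Real.volume_Icc]
    exact ENNReal.ofReal_lt_top
  · exact (measurable_one.indicator measurableSet_Icc).aemeasurable
  · refine (Measurable.indicator ?_ measurableSet_Ici).aemeasurable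
    fun_prop

theorem fd_volume_re_eq (c : ℝ) : volume {z : ℂ | z.re = c} = 0 := by
  have e : {z : ℂ | z.re = c}
      = Complex.measurableEquivRealProd ⁻¹' (({c} : Set ℝ) ×ˢ (Set.univ : Set ℝ)) := by
    ext z
    simp [Complex.measurableEquivRealProd_apply]
  rw [e, Complex.volume_preserving_equiv_real_prod.measure_preimage
    ((measurableSet_singleton c).prod MeasurableSet.univ).nullMeasurableSet]
  rw [show (volume : Measure (ℝ × ℝ)) = (volume : Measure ℝ).prod (volume : Measure ℝ) from rfl,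
    Measure.prod_prod]
  simp

/-- (F2) the boundary of the standard fundamental domain is a null set. -/
theorem volume_fd_diff_fdo : volume ((𝒟 : Set ℍ) \ 𝒟ᵒ) = 0 := by
  rw [volume_eq_lintegral]
  apply setLIntegral_measure_zero
  have hsub : (↑) '' ((𝒟 : Set ℍ) \ 𝒟ᵒ) ⊆
      Metric.sphere (0 : ℂ) 1 ∪ ({z : ℂ | z.re = 1 / 2} ∪ {z : ℂ | z.re = -(1 / 2)}) := by
    rintro z ⟨τ, ⟨hτ, hτ'⟩, rfl⟩
    by_cases h1 : 1 < Complex.normSq (τ : ℂ)
    · right
      have h2 : ¬ |τ.re| < 1 / 2 := fun h => hτ' ⟨h1, h⟩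
      have h3 : |τ.re| = 1 / 2 := le_antisymm hτ.2 (not_lt.mp h2)
      rcases (abs_eq (by norm_num)).mp h3 with h | h
      · left; exact h
      · right; exact h
    · left
      have h2 : Complex.normSq (τ : ℂ) = 1 := le_antisymm (not_lt.mp h1) hτ.1
      rw [mem_sphere_zero_iff_norm]
      have h3 : ‖(τ : ℂ)‖ ^ 2 = 1 := by rw [← Complex.normSq_eq_norm_sq, h2]
      have h4 : (0 : ℝ) ≤ ‖(τ : ℂ)‖ := norm_nonneg _
      nlinarith
  refine measure_mono_null hsub ?_
  exact measure_union_null (Measure.addHaar_sphere volume 0 1)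
    (measure_union_null (fd_volume_re_eq _) (fd_volume_re_eq _))

/-- The set of points whose orbit misses the boundary of `𝒟` is conull. -/
theorem fd_ae_forall_smul_notMem_boundary :
    ∀ᵐ τ : ℍ ∂volume, ∀ γ : SL(2, ℤ), γ • τ ∉ (𝒟 : Set ℍ) \ 𝒟ᵒ := by
  have := countable_SL2Z
  rw [ae_all_iff]
  intro γ
  rw [ae_iff]
  simp only [not_not]
  have e : {τ : ℍ | γ • τ ∈ (𝒟 : Set ℍ) \ 𝒟ᵒ}
      = (fun τ : ℍ => (γ : GL (Fin 2) ℝ) • τ) ⁻¹' ((𝒟 : Set ℍ) \ 𝒟ᵒ) := rfl
  rw [e, measure_preimage_smul]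
  exact volume_fd_diff_fdo

theorem fd_mapGL_neg_ne (γ : SL(2, ℤ)) :
    (Matrix.SpecialLinearGroup.mapGL ℝ γ : GL (Fin 2) ℝ)
      ≠ Matrix.SpecialLinearGroup.mapGL ℝ (-γ) := by
  intro h
  have h1 : γ = -γ := Matrix.SpecialLinearGroup.mapGL_injective h
  have h2 := congrArg (fun g : SL(2, ℤ) => (g : Matrix (Fin 2) (Fin 2) ℤ)) h1
  simp only [Matrix.SpecialLinearGroup.coe_neg] at h2
  have h3 : (γ : Matrix (Fin 2) (Fin 2) ℤ) = 0 := by
    have : (2 : ℤ) • (γ : Matrix (Fin 2) (Fin 2) ℤ) = 0 := by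
      rw [two_smul]
      nth_rewrite 1 [h2]
      simp
    exact (smul_eq_zero.mp this).resolve_left (by norm_num)
  have h4 := Matrix.SpecialLinearGroup.det_coe γ
  rw [h3] at h4
  simp at h4

/-- (U5) `(1/2) 1_𝒟` is a weight for (the image in `GL(2, ℝ)` of) `SL(2, ℤ)`. -/
theorem isWeight_fd :
    IsWeight (volume : Measure ℍ) SLZ (fun τ => Set.indicator (𝒟 : Set ℍ) (fun _ => (1 / 2 : ℝ)) τ) := by
  classical
  have hmeas : MeasurableSet (𝒟 : Set ℍ) := isClosed_fd.measurableSet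
  refine ⟨measurable_const.indicator hmeas, fun x => Set.indicator_nonneg (fun _ _ => by norm_num) x,
    ?_, ?_⟩
  · rw [integrable_indicator_iff hmeas]
    exact integrableOn_const volume_fd_lt_top.ne
  · filter_upwards [fd_ae_forall_smul_notMem_boundary] with τ hτ
    obtain ⟨γ₀, hγ₀⟩ := exists_smul_mem_fd τ
    have hγ₀o : γ₀ • τ ∈ 𝒟ᵒ := by
      by_contra h
      exact hτ γ₀ ⟨hγ₀, h⟩
    set δ₁ : SLZ := ⟨Matrix.SpecialLinearGroup.mapGL ℝ γ₀, ⟨γ₀, rfl⟩⟩ with hδ₁
    set δ₂ : SLZ := ⟨Matrix.SpecialLinearGroup.mapGL ℝ (-γ₀), ⟨-γ₀, rfl⟩⟩ with hδ₂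
    have hne : δ₁ ≠ δ₂ := by
      intro h
      exact fd_mapGL_neg_ne γ₀ (congrArg Subtype.val h)
    have hsupp : ∀ δ : SLZ, δ ∉ ({δ₁, δ₂} : Finset SLZ) →
        Set.indicator (𝒟 : Set ℍ) (fun _ => (1 / 2 : ℝ)) ((δ : GL (Fin 2) ℝ) • τ) = 0 := by
      intro δ hδ
      apply Set.indicator_of_notMem
      intro hmem
      apply hδ
      obtain ⟨γ, hγ⟩ := δ.2
      have hmem' : γ • τ ∈ 𝒟 := by
        have : γ • τ = (δ : GL (Fin 2) ℝ) • τ := by rw [← hγ]; rfl
        rw [this]; exact hmem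
      have hmem'' : (γ * γ₀⁻¹) • (γ₀ • τ) ∈ 𝒟 := by
        rw [← mul_smul, inv_mul_cancel_right]
        exact hmem'
      rcases eq_one_or_neg_one_of_mem_fdo_mem_fd hγ₀o hmem'' with h | h
      · have hγeq : γ = γ₀ := by
          rw [mul_inv_eq_one] at h
          exact h
        rw [Finset.mem_insert]
        left
        apply Subtype.ext
        rw [← hγ, hγeq]
      · have hγeq : γ = -γ₀ := by
          have := congrArg (· * γ₀) h
          simpa using this
        rw [Finset.mem_insert, Finset.mem_singleton]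
        right
        apply Subtype.ext
        rw [← hγ, hγeq]
    have h1 : Set.indicator (𝒟 : Set ℍ) (fun _ => (1 / 2 : ℝ)) ((δ₁ : GL (Fin 2) ℝ) • τ) = 1 / 2 :=
      Set.indicator_of_mem (by exact hγ₀) _
    have h2 : Set.indicator (𝒟 : Set ℍ) (fun _ => (1 / 2 : ℝ)) ((δ₂ : GL (Fin 2) ℝ) • τ) = 1 / 2 := by
      apply Set.indicator_of_mem
      have : ((δ₂ : GL (Fin 2) ℝ) • τ) = (-γ₀) • τ := rfl
      rw [this, SL_neg_smul]
      exact hγ₀
    have hsum : HasSum (fun δ : SLZ =>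
        Set.indicator (𝒟 : Set ℍ) (fun _ => (1 / 2 : ℝ)) ((δ : GL (Fin 2) ℝ) • τ))
        (∑ δ ∈ ({δ₁, δ₂} : Finset SLZ),
          Set.indicator (𝒟 : Set ℍ) (fun _ => (1 / 2 : ℝ)) ((δ : GL (Fin 2) ℝ) • τ)) :=
      hasSum_sum_of_ne_finset_zero hsupp
    rw [Finset.sum_pair hne, h1, h2] at hsum
    norm_num at hsum
    exact hsum

end Fermat.Agent.Pet
end MergeWrap_Lib_Petersson_FdBasic

section MergeWrap_Lib_Petersson_Levels -- from Lib/Petersson/Levels.lean

/-!
# Lib/Petersson/Levels: group theory of the principal congruence subgroups inside `GL(2, ℝ)`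
(owner: helper27).  Pure matrix computations, no analysis.

`ModularForm.heckeDiagMatrix p = diag(p, 1)`.  For `γ = [a, b; c, d] ∈ Γ(m p)`:
`diag(p,1) γ diag(p,1)⁻¹ = [a, p b; c / p, d] ∈ Γ(m)`, and every element of `Γ(m p p)` is of this
form, so the conjugate contains `Γ(m p p)` and has finite index in `Γ(m)`.
-/

set_option linter.unusedVariables false

namespace Fermat.Agent.Pet

open CongruenceSubgroup

open scoped MatrixGroups

/-! ### auxiliary lemmas -/

theorem countable_SL2Z_aux : Countable SL(2, ℤ) := by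
  have : Countable (Matrix (Fin 2) (Fin 2) ℤ) := by
    unfold Matrix
    infer_instance
  exact (Subtype.val_injective (p := fun A : Matrix (Fin 2) (Fin 2) ℤ => A.det = 1)).countable

theorem mapGL_injective_aux :
    Function.Injective (Matrix.SpecialLinearGroup.mapGL ℝ : SL(2, ℤ) →* GL (Fin 2) ℝ) :=
  Matrix.SpecialLinearGroup.mapGL_injective

/-- membership in `Γ(m)` by divisibility. -/
theorem mem_Gamma_iff_dvd_aux {m : ℕ} {γ : SL(2, ℤ)} :
    γ ∈ Gamma m ↔ (m : ℤ) ∣ γ 0 0 - 1 ∧ (m : ℤ) ∣ γ 0 1 ∧ (m : ℤ) ∣ γ 1 0 ∧ (m : ℤ) ∣ γ 1 1 - 1 := by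
  rw [Gamma_mem]
  have e1 : ∀ x : ℤ, ((x : ZMod m) = 1) ↔ (m : ℤ) ∣ x - 1 := by
    intro x
    rw [← Int.cast_one, ZMod.intCast_eq_intCast_iff_dvd_sub, ← dvd_neg, neg_sub]
  have e0 : ∀ x : ℤ, ((x : ZMod m) = 0) ↔ (m : ℤ) ∣ x := by
    intro x
    exact ZMod.intCast_zmod_eq_zero_iff_dvd x m
  rw [e1, e1, e0, e0]

theorem Gamma_le_of_dvd_aux {m m' : ℕ} (h : m ∣ m') : Gamma m' ≤ Gamma m := by
  intro γ hγ
  rw [mem_Gamma_iff_dvd_aux] at hγ ⊢
  obtain ⟨h1, h2, h3, h4⟩ := hγ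
  have hd : (m : ℤ) ∣ (m' : ℤ) := Int.natCast_dvd_natCast.mpr h
  exact ⟨hd.trans h1, hd.trans h2, hd.trans h3, hd.trans h4⟩

theorem det_SL_aux (γ : SL(2, ℤ)) : (γ 0 0) * (γ 1 1) - (γ 0 1) * (γ 1 0) = 1 := by
  have := γ.det_coe
  rw [Matrix.det_fin_two] at this
  exact this

/-- an element of `SL(2, ℤ)` from its entries. -/
theorem exists_SL_aux (a b c d : ℤ) (h : a * d - b * c = 1) :
    ∃ γ : SL(2, ℤ), γ 0 0 = a ∧ γ 0 1 = b ∧ γ 1 0 = c ∧ γ 1 1 = d := by
  have hA : (!![a, b; c, d] : Matrix (Fin 2) (Fin 2) ℤ).det = 1 := by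
    rw [Matrix.det_fin_two_of, h]
  exact ⟨⟨!![a, b; c, d], hA⟩, rfl, rfl, rfl, rfl⟩

/-- the matrix of `mapGL ℝ γ`. -/
theorem val_mapGL_aux (γ : SL(2, ℤ)) :
    ((Matrix.SpecialLinearGroup.mapGL ℝ γ : GL (Fin 2) ℝ) : Matrix (Fin 2) (Fin 2) ℝ) =
      !![((γ 0 0 : ℤ) : ℝ), ((γ 0 1 : ℤ) : ℝ); ((γ 1 0 : ℤ) : ℝ), ((γ 1 1 : ℤ) : ℝ)] := by
  ext i j
  fin_cases i <;> fin_cases j <;> simp [Matrix.SpecialLinearGroup.mapGL]

/-! ### the stubs -/

theorem countable_SLZ : Countable SLZ := by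
  unfold SLZ
  have := countable_SL2Z_aux
  exact (MonoidHom.rangeRestrict_surjective
    (Matrix.SpecialLinearGroup.mapGL ℝ : SL(2, ℤ) →* GL (Fin 2) ℝ)).countable

theorem GammaGL_le_SLZ (m : ℕ) : GammaGL m ≤ SLZ := by
  unfold GammaGL SLZ
  exact Subgroup.map_le_range _ _

theorem countable_GammaGL (m : ℕ) : Countable (GammaGL m) := by
  have := countable_SLZ
  exact (Subgroup.inclusion_injective (GammaGL_le_SLZ m)).countable

theorem relIndex_GammaGL_SLZ_ne_zero (m : ℕ) [NeZero m] : (GammaGL m).relIndex SLZ ≠ 0 := by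
  unfold GammaGL SLZ
  rw [MonoidHom.range_eq_map, Subgroup.relIndex_map_map_of_injective _ _ mapGL_injective_aux,
    Subgroup.relIndex_top_right]
  exact Subgroup.FiniteIndex.index_ne_zero

theorem GammaGL_le_of_dvd {m m' : ℕ} (h : m ∣ m') : GammaGL m' ≤ GammaGL m := by
  unfold GammaGL
  exact Subgroup.map_mono (Gamma_le_of_dvd_aux h)

theorem relIndex_GammaGL_ne_zero {m m' : ℕ} [NeZero m'] (h : m ∣ m') :
    (GammaGL m').relIndex (GammaGL m) ≠ 0 := by
  unfold GammaGL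
  rw [Subgroup.relIndex_map_map_of_injective _ _ mapGL_injective_aux]
  intro h0
  have h1 : (Gamma m').index ≠ 0 := Subgroup.FiniteIndex.index_ne_zero
  apply h1
  rw [← Subgroup.relIndex_top_right]
  exact Subgroup.relIndex_eq_zero_of_le_right le_top h0

/-- `Γ(m)` is normal in `SL(2, ℤ)`. -/
theorem map_conj_SL_GammaGL (m : ℕ) (γ : SL(2, ℤ)) :
    (GammaGL m).map (MulAut.conj (Matrix.SpecialLinearGroup.mapGL ℝ γ)).toMonoidHom = GammaGL m := by
  unfold GammaGL
  rw [Subgroup.map_map]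
  have hcomp : ((MulAut.conj (Matrix.SpecialLinearGroup.mapGL ℝ γ)).toMonoidHom.comp
      (Matrix.SpecialLinearGroup.mapGL ℝ : SL(2, ℤ) →* GL (Fin 2) ℝ)) =
      (Matrix.SpecialLinearGroup.mapGL ℝ : SL(2, ℤ) →* GL (Fin 2) ℝ).comp
        (MulAut.conj γ).toMonoidHom := by
    ext1 x
    simp [MulAut.conj_apply]
  rw [hcomp, ← Subgroup.map_map]
  congr 1
  have hn : (Gamma m).Normal := Gamma_normal m
  ext x
  simp only [Subgroup.mem_map, MulEquiv.coe_toMonoidHom, MulAut.conj_apply]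
  constructor
  · rintro ⟨y, hy, rfl⟩
    exact hn.conj_mem y hy γ
  · intro hx
    refine ⟨γ⁻¹ * x * γ, ?_, by group⟩
    have := hn.conj_mem x hx γ⁻¹
    simpa using this

theorem map_conj_diag_GammaGL_le (m p : ℕ) [NeZero p] :
    (GammaGL (m * p)).map (MulAut.conj (ModularForm.heckeDiagMatrix p)).toMonoidHom ≤ GammaGL m := by
  have hp : p ≠ 0 := NeZero.ne p
  unfold GammaGL
  rintro _ ⟨_, ⟨γ, hγ, rfl⟩, rfl⟩
  rw [SetLike.mem_coe, mem_Gamma_iff_dvd_aux] at hγ
  obtain ⟨h00, h01, h10, h11⟩ := hγ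
  push_cast at h00 h01 h10 h11
  obtain ⟨c', hc'⟩ := h10
  have hdet := det_SL_aux γ
  obtain ⟨γ', e00, e01, e10, e11⟩ := exists_SL_aux (γ 0 0) (p * γ 0 1) (m * c') (γ 1 1) (by
    linear_combination hdet + (γ 0 1) * hc')
  refine ⟨γ', ?_, ?_⟩
  · rw [SetLike.mem_coe, mem_Gamma_iff_dvd_aux, e00, e01, e10, e11]
    refine ⟨?_, ?_, ?_, ?_⟩
    · exact dvd_trans (dvd_mul_right _ _) h00
    · obtain ⟨b', hb'⟩ := h01
      rw [hb']
      exact ⟨p * p * b', by ring⟩
    · exact dvd_mul_right _ _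
    · exact dvd_trans (dvd_mul_right _ _) h11
  · simp only [MulEquiv.coe_toMonoidHom, MulAut.conj_apply]
    rw [eq_mul_inv_iff_mul_eq]
    apply Units.ext
    simp only [Units.val_mul, ModularForm.val_heckeDiagMatrix hp, val_mapGL_aux, e00, e01, e10,
      e11, hc']
    ext i j
    fin_cases i <;> fin_cases j <;>
      simp [Matrix.mul_apply, Fin.sum_univ_two] <;> ring

/-- the conjugate of `Γ(m p)` by `diag(p, 1)` contains `Γ(m p p)`. -/
theorem GammaGL_le_map_conj_diag_aux (m p : ℕ) [NeZero p] :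
    GammaGL (m * p * p) ≤
      (GammaGL (m * p)).map (MulAut.conj (ModularForm.heckeDiagMatrix p)).toMonoidHom := by
  have hp : p ≠ 0 := NeZero.ne p
  unfold GammaGL
  rintro _ ⟨γ', hγ', rfl⟩
  rw [SetLike.mem_coe, mem_Gamma_iff_dvd_aux] at hγ'
  obtain ⟨h00, h01, h10, h11⟩ := hγ'
  push_cast at h00 h01 h10 h11
  obtain ⟨b'', hb''⟩ := h01
  have hdet := det_SL_aux γ'
  obtain ⟨γ, e00, e01, e10, e11⟩ := exists_SL_aux (γ' 0 0) (m * p * b'') (p * γ' 1 0) (γ' 1 1) (by
    linear_combination hdet + (γ' 1 0) * hb'')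
  refine ⟨Matrix.SpecialLinearGroup.mapGL ℝ γ, ⟨γ, ?_, rfl⟩, ?_⟩
  · rw [SetLike.mem_coe, mem_Gamma_iff_dvd_aux, e00, e01, e10, e11]
    push_cast
    refine ⟨?_, ?_, ?_, ?_⟩
    · exact dvd_trans (dvd_mul_right _ _) h00
    · exact dvd_mul_right _ _
    · obtain ⟨c'', hc''⟩ := h10
      rw [hc'']
      exact ⟨p * p * c'', by ring⟩
    · exact dvd_trans (dvd_mul_right _ _) h11
  · simp only [MulEquiv.coe_toMonoidHom, MulAut.conj_apply]
    rw [mul_inv_eq_iff_eq_mul]
    apply Units.ext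
    simp only [Units.val_mul, ModularForm.val_heckeDiagMatrix hp, val_mapGL_aux, e00, e01, e10,
      e11, hb'']
    ext i j
    fin_cases i <;> fin_cases j <;>
      simp [Matrix.mul_apply, Fin.sum_univ_two] <;> ring

theorem relIndex_map_conj_diag_ne_zero (m p : ℕ) [NeZero m] [NeZero p] :
    ((GammaGL (m * p)).map (MulAut.conj (ModularForm.heckeDiagMatrix p)).toMonoidHom).relIndex
      (GammaGL m) ≠ 0 := by
  have hm : m ≠ 0 := NeZero.ne m
  have hp : p ≠ 0 := NeZero.ne p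
  have : NeZero (m * p * p) := ⟨mul_ne_zero (mul_ne_zero hm hp) hp⟩
  intro h0
  have h1 := Subgroup.relIndex_dvd_of_le_left (GammaGL m) (GammaGL_le_map_conj_diag_aux m p)
  rw [h0, zero_dvd_iff] at h1
  exact relIndex_GammaGL_ne_zero (m := m) (m' := m * p * p) ⟨p * p, by ring⟩ h1

/-- invariance under `Γ(m)` (as a subgroup of `SL(2, ℤ)`) is invariance under `GammaGL m`. -/
theorem forall_mem_GammaGL_iff {α : Type*} (m : ℕ) (φ : UpperHalfPlane → α) :
    (∀ δ ∈ GammaGL m, ∀ τ, φ (δ • τ) = φ τ) ↔ ∀ γ ∈ Gamma m, ∀ τ, φ (γ • τ) = φ τ := by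
  unfold GammaGL
  constructor
  · intro h γ hγ τ
    exact h _ (Subgroup.mem_map_of_mem _ hγ) τ
  · rintro h δ ⟨γ, hγ, rfl⟩ τ
    exact h γ hγ τ

end Fermat.Agent.Pet
end MergeWrap_Lib_Petersson_Levels

section MergeWrap_Lib_Petersson_PetHeckeProps -- from Lib/Petersson/PetHeckeProps.lean

/-!
# Lib/Petersson/PetHeckeProps: the Petersson integrand of two cusp forms (helper50)

`petersson k f g` is continuous, bounded and `Γ(N)`-invariant for `f, g ∈ S_k(Γ₀(N))`.
-/

set_option autoImplicit false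

namespace Fermat.Agent.Pet

open CongruenceSubgroup UpperHalfPlane ModularForm

open scoped MatrixGroups ModularForm

/-- the Petersson integrand of two cusp forms is invariant under `Γ₀(N)`. -/
theorem petersson_smul_of_mem_Gamma0 (N : ℕ) (k : ℤ) (f g : CuspForm (Gamma0 N) k)
    (γ : SL(2, ℤ)) (hγ : γ ∈ Gamma0 N) (τ : ℍ) :
    petersson k f g (γ • τ) = petersson k f g τ := by
  have hγ' : (γ : GL (Fin 2) ℝ) ∈ (Gamma0 N).map (Matrix.SpecialLinearGroup.mapGL ℝ) :=
    Subgroup.mem_map_of_mem _ hγ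
  have hf : (⇑f) ∣[k] γ = ⇑f := SlashInvariantForm.slash_action_eqn f _ hγ'
  have hg : (⇑g) ∣[k] γ = ⇑g := SlashInvariantForm.slash_action_eqn g _ hγ'
  rw [← petersson_slash_SL, hf, hg]

/-- the Petersson integrand of two cusp forms is continuous, bounded and `Γ(N)`-invariant. -/
theorem petersson_cuspForm_props_aux (N : ℕ) [NeZero N] (k : ℤ) (f g : CuspForm (Gamma0 N) k) :
    Continuous (petersson k f g) ∧ (∃ C, ∀ τ, ‖petersson k f g τ‖ ≤ C) ∧
      (∀ γ ∈ Gamma N, ∀ τ, petersson k f g (γ • τ) = petersson k f g τ) := by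
  refine ⟨?_, ?_, ?_⟩
  · exact petersson_continuous k (CuspFormClass.holo f).continuous
      (CuspFormClass.holo g).continuous
  · exact CuspFormClass.petersson_bounded_left k _ f g
  · intro γ hγ τ
    refine petersson_smul_of_mem_Gamma0 N k f g γ ?_ τ
    rw [Gamma_mem] at hγ
    rw [Gamma0_mem]
    exact hγ.2.2.1

end Fermat.Agent.Pet
end MergeWrap_Lib_Petersson_PetHeckeProps

section MergeWrap_Lib_Petersson_PetHecke -- from Lib/Petersson/PetHecke.lean

/-!
# Lib/Petersson/PetHecke: the Petersson integrand of `T_p f` (owner: helper31; `petersson_cuspForm_props` by helper50).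
Pure slash-action computations, no measure theory.

Notation: `β_j = heckeMatrix p j = [1, j; 0, p]`, `β_∞ = heckeDiagMatrix p = [p, 0; 0, 1]`,
`T_p f = ∑_{j<p} f ∣[k] β_j + f ∣[k] β_∞` (Prelude `ModularForm.heckeT_def`).
Take `φ := petersson k (f ∣[k] β_0) g`.  Then, pointwise:
* `β_j = β_0 * T^j`, so `petersson k (f ∣ β_j) g = φ ∘ T^j` (`UpperHalfPlane.petersson_slash_SL`,
  `g ∣ T^j = g`);
* `p ∤ N`: choose `u, b` with `p u - b N = 1`, `γ = [p u, b; N, 1]`, `δ = [u, b; N, p] ∈ Γ₀(N)`;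
  then `δ β_∞ = β_0 γ`, so `f ∣ β_∞ = (f ∣ β_0) ∣ γ` and `petersson k (f ∣ β_∞) g = φ ∘ γ`;
* `petersson k f (g ∣ β_∞) = φ ∘ β_∞` (direct from `slash_heckeMatrix_apply`,
  `slash_heckeDiagMatrix_apply`: both sides are `p^(k-1) conj (f τ) g (p τ) y^k`);
* `β_j = δ β_∞ γ⁻¹ T^j`, so `petersson k f (g ∣ β_j) = (φ ∘ β_∞) ∘ (γ⁻¹ T^j)`;
* `φ` and `φ ∘ β_∞` are invariant under `Γ(N p)`: for `γ ∈ Γ(N p)`, `β_0 γ β_0⁻¹ ∈ Γ₀(N)` and
  `β_∞ γ β_∞⁻¹ ∈ Γ₀(N)`;
* `φ` is bounded: `‖φ τ‖² = ‖petersson (f∣β_0) (f∣β_0) τ‖ ‖petersson g g τ‖`, the first factor is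
  `p^(k-2) ‖petersson f f (β_0 τ)‖` (`UpperHalfPlane.petersson_slash`), and
  `CuspFormClass.petersson_bounded_left`.
-/

namespace Fermat.Agent.Pet

open CongruenceSubgroup UpperHalfPlane ModularForm

open scoped MatrixGroups ModularForm ComplexConjugate


/-- the integral matrix `[a, b; c, d]` of determinant one. -/
def phSL (a b c d : ℤ) (h : a * d - b * c = 1) : SL(2, ℤ) :=
  ⟨!![a, b; c, d], by rw [Matrix.det_fin_two_of]; exact h⟩

theorem ph_coe_apply (A : SL(2, ℤ)) (i j : Fin 2) :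
    ((A : GL (Fin 2) ℝ) : Matrix (Fin 2) (Fin 2) ℝ) i j = ((A i j : ℤ) : ℝ) := by
  simp [Matrix.SpecialLinearGroup.map_apply_coe, RingHom.mapMatrix_apply]

theorem ph_val_phSL (a b c d : ℤ) (h : a * d - b * c = 1) :
    (((phSL a b c d h : SL(2, ℤ)) : GL (Fin 2) ℝ) : Matrix (Fin 2) (Fin 2) ℝ) =
      !![(a : ℝ), (b : ℝ); (c : ℝ), (d : ℝ)] := by
  ext i j
  rw [ph_coe_apply]
  fin_cases i <;> fin_cases j <;> rfl

theorem ph_GL_ext {A B : GL (Fin 2) ℝ}
    (h00 : (A : Matrix (Fin 2) (Fin 2) ℝ) 0 0 = (B : Matrix (Fin 2) (Fin 2) ℝ) 0 0)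
    (h01 : (A : Matrix (Fin 2) (Fin 2) ℝ) 0 1 = (B : Matrix (Fin 2) (Fin 2) ℝ) 0 1)
    (h10 : (A : Matrix (Fin 2) (Fin 2) ℝ) 1 0 = (B : Matrix (Fin 2) (Fin 2) ℝ) 1 0)
    (h11 : (A : Matrix (Fin 2) (Fin 2) ℝ) 1 1 = (B : Matrix (Fin 2) (Fin 2) ℝ) 1 1) : A = B := by
  apply Matrix.GeneralLinearGroup.ext
  intro i j
  fin_cases i <;> fin_cases j <;> assumption

/-- `β_0 * γ = ε * β_0` when `γ = [a, p b; c, d]`, `ε = [a, b; p c, d]`. -/
theorem ph_conj_zero {p : ℕ} (hp : p ≠ 0) (a b c d : ℤ) (h : a * d - (p * b) * c = 1)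
    (h' : a * d - b * (p * c) = 1) :
    heckeMatrix p 0 * ((phSL a (p * b) c d h : SL(2, ℤ)) : GL (Fin 2) ℝ) =
      ((phSL a b (p * c) d h' : SL(2, ℤ)) : GL (Fin 2) ℝ) * heckeMatrix p 0 := by
  apply ph_GL_ext <;>
  simp only [Matrix.GeneralLinearGroup.coe_mul, ph_val_phSL, val_heckeMatrix hp, Matrix.mul_apply,
    Fin.sum_univ_two] <;> simp <;> ring

/-- `β_∞ * γ = ε * β_∞` when `γ = [a, b; p c, d]`, `ε = [a, p b; c, d]`. -/
theorem ph_conj_infty {p : ℕ} (hp : p ≠ 0) (a b c d : ℤ) (h : a * d - b * (p * c) = 1)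
    (h' : a * d - (p * b) * c = 1) :
    heckeDiagMatrix p * ((phSL a b (p * c) d h : SL(2, ℤ)) : GL (Fin 2) ℝ) =
      ((phSL a (p * b) c d h' : SL(2, ℤ)) : GL (Fin 2) ℝ) * heckeDiagMatrix p := by
  apply ph_GL_ext <;>
  simp only [Matrix.GeneralLinearGroup.coe_mul, ph_val_phSL, val_heckeDiagMatrix hp,
    Matrix.mul_apply, Fin.sum_univ_two] <;> simp <;> ring

/-- `β_j = β_0 * [1, j; 0, 1]`. -/
theorem ph_heckeMatrix_eq {p : ℕ} (hp : p ≠ 0) (j : ℕ) :
    heckeMatrix p j = heckeMatrix p 0 * ((phSL 1 j 0 1 (by ring) : SL(2, ℤ)) : GL (Fin 2) ℝ) := by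
  apply ph_GL_ext <;>
  simp only [Matrix.GeneralLinearGroup.coe_mul, ph_val_phSL, val_heckeMatrix hp, Matrix.mul_apply,
    Fin.sum_univ_two] <;> simp

/-- `δ β_∞ = β_0 γ` for `γ = [p x, -y; N, 1]`, `δ = [x, -y; N, p]`. -/
theorem ph_swap {p : ℕ} (hp : p ≠ 0) (N : ℕ) (x y : ℤ) (h : (p * x) * 1 - (-y) * N = 1)
    (h' : x * p - (-y) * N = 1) :
    ((phSL x (-y) N p h' : SL(2, ℤ)) : GL (Fin 2) ℝ) * heckeDiagMatrix p =
      heckeMatrix p 0 * ((phSL (p * x) (-y) N 1 h : SL(2, ℤ)) : GL (Fin 2) ℝ) := by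
  apply ph_GL_ext <;>
  simp only [Matrix.GeneralLinearGroup.coe_mul, ph_val_phSL, val_heckeMatrix hp,
    val_heckeDiagMatrix hp, Matrix.mul_apply, Fin.sum_univ_two] <;> simp <;> ring

theorem ph_det (γ : SL(2, ℤ)) : γ 0 0 * γ 1 1 - γ 0 1 * γ 1 0 = 1 := by
  have := γ.prop
  rwa [Matrix.det_fin_two] at this

theorem ph_eq_phSL (γ : SL(2, ℤ)) (a b c d : ℤ) (h : a * d - b * c = 1) (h00 : γ 0 0 = a)
    (h01 : γ 0 1 = b) (h10 : γ 1 0 = c) (h11 : γ 1 1 = d) : γ = phSL a b c d h := by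
  apply Subtype.ext
  ext i j
  fin_cases i <;> fin_cases j <;> simpa [phSL]

theorem ph_phSL_mem_Gamma0 (N : ℕ) (a b c d : ℤ) (h) (hc : (N : ℤ) ∣ c) :
    phSL a b c d h ∈ Gamma0 N := by
  rw [Gamma0_mem]
  exact (ZMod.intCast_zmod_eq_zero_iff_dvd _ N).mpr hc

variable {N : ℕ} {k : ℤ}

/-- slash invariance of a cusp form under `Γ₀(N)`, `SL(2, ℤ)` form. -/
theorem ph_slash_eq (f : CuspForm (Gamma0 N) k) {γ : SL(2, ℤ)} (hγ : γ ∈ Gamma0 N) :
    (⇑f) ∣[k] γ = ⇑f := by
  rw [ModularForm.SL_slash]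
  exact SlashInvariantFormClass.slash_action_eq f _ ⟨γ, hγ, rfl⟩

theorem ph_petersson_add_left (F G H : ℍ → ℂ) (τ : ℍ) :
    petersson k (F + G) H τ = petersson k F H τ + petersson k G H τ := by
  simp only [petersson, Pi.add_apply, map_add]; ring

theorem ph_petersson_add_right (F G H : ℍ → ℂ) (τ : ℍ) :
    petersson k F (G + H) τ = petersson k F G τ + petersson k F H τ := by
  simp only [petersson, Pi.add_apply]; ring

theorem ph_petersson_sum_left {ι : Type*} (s : Finset ι) (F : ι → ℍ → ℂ) (H : ℍ → ℂ) (τ : ℍ) :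
    petersson k (∑ i ∈ s, F i) H τ = ∑ i ∈ s, petersson k (F i) H τ := by
  classical
  induction s using Finset.induction_on with
  | empty => simp [petersson]
  | insert a s ha ih => rw [Finset.sum_insert ha, Finset.sum_insert ha, ph_petersson_add_left, ih]

theorem ph_petersson_sum_right {ι : Type*} (s : Finset ι) (F : ℍ → ℂ) (H : ι → ℍ → ℂ) (τ : ℍ) :
    petersson k F (∑ i ∈ s, H i) τ = ∑ i ∈ s, petersson k F (H i) τ := by
  classical
  induction s using Finset.induction_on with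
  | empty => simp [petersson]
  | insert a s ha ih => rw [Finset.sum_insert ha, Finset.sum_insert ha, ph_petersson_add_right, ih]

/-- the pointwise identity `petersson f (g ∣ β_∞) = petersson (f ∣ β_0) g ∘ β_∞`. -/
theorem ph_key {p : ℕ} (hp : p ≠ 0) (k : ℤ) (f g : ℍ → ℂ) (τ : ℍ) :
    petersson k f (g ∣[k] heckeDiagMatrix p) τ =
      petersson k (f ∣[k] heckeMatrix p 0) g (heckeDiagMatrix p • τ) := by
  have hpC : (p : ℂ) ≠ 0 := by exact_mod_cast hp
  have h1 : heckeMatrix p 0 • (heckeDiagMatrix p • τ) = τ := by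
    apply UpperHalfPlane.ext
    rw [coe_heckeMatrix_smul hp, coe_heckeDiagMatrix_smul hp]
    field_simp
    simp
  have h2 : (heckeDiagMatrix p • τ).im = p * τ.im := by
    have := congrArg Complex.im (coe_heckeDiagMatrix_smul hp τ)
    simpa using this
  simp only [petersson, slash_heckeDiagMatrix_apply k hp, slash_heckeMatrix_apply k hp, h1, h2]
  push_cast
  rw [mul_zpow, map_mul, map_inv₀, Complex.conj_natCast, zpow_sub_one₀ hpC]
  ring


/-- slash by `β_j`: `f ∣ β_j = (f ∣ β_0) ∣ [1, j; 0, 1]`. -/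
theorem ph_slash_heckeMatrix {p : ℕ} (hp : p ≠ 0) (j : ℕ) (F : ℍ → ℂ) :
    F ∣[k] heckeMatrix p j = (F ∣[k] heckeMatrix p 0) ∣[k] (phSL 1 j 0 1 (by ring)) := by
  rw [ph_heckeMatrix_eq hp j, SlashAction.slash_mul, ModularForm.SL_slash]

/-- the Petersson integrand of a pair that is slash-invariant under `γ`. -/
theorem ph_petersson_smul (F G : ℍ → ℂ) (γ : SL(2, ℤ)) (hF : F ∣[k] γ = F) (hG : G ∣[k] γ = G)
    (τ : ℍ) : petersson k F G (γ • τ) = petersson k F G τ := by
  rw [← petersson_slash_SL, hF, hG]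

theorem ph_norm_petersson (F G : ℍ → ℂ) (τ : ℍ) :
    ‖petersson k F G τ‖ = ‖F τ‖ * ‖G τ‖ * τ.im ^ k := by
  rw [petersson, norm_mul, norm_mul, Complex.norm_conj, norm_zpow, Complex.norm_real,
    Real.norm_of_nonneg τ.im_pos.le]

theorem ph_norm_petersson_sq (F G : ℍ → ℂ) (τ : ℍ) :
    ‖petersson k F G τ‖ ^ 2 = ‖petersson k F F τ‖ * ‖petersson k G G τ‖ := by
  simp only [ph_norm_petersson]; ring

/-- members of `Γ(N p)`: shape of the entries. -/
theorem ph_Gamma_entries {N p : ℕ} {γ : SL(2, ℤ)} (hγ : γ ∈ Gamma (N * p)) :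
    (∃ b', γ 0 1 = p * b') ∧ (∃ c', γ 1 0 = p * c' ∧ (N : ℤ) ∣ c') ∧ (N : ℤ) ∣ γ 1 0 := by
  rw [Gamma_mem] at hγ
  obtain ⟨-, hb, hc, -⟩ := hγ
  have hb' : ((N * p : ℕ) : ℤ) ∣ γ 0 1 := (ZMod.intCast_zmod_eq_zero_iff_dvd _ _).mp hb
  have hc' : ((N * p : ℕ) : ℤ) ∣ γ 1 0 := (ZMod.intCast_zmod_eq_zero_iff_dvd _ _).mp hc
  push_cast at hb' hc'
  obtain ⟨b', hb'⟩ := hb'
  obtain ⟨c', hc'⟩ := hc'
  exact ⟨⟨N * b', by rw [hb']; ring⟩, ⟨N * c', by rw [hc']; ring, dvd_mul_right _ _⟩,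
    ⟨p * c', by rw [hc']; ring⟩⟩

/-- the Petersson integrand of two cusp forms is continuous, bounded and `Γ(N)`-invariant. -/
theorem petersson_cuspForm_props (N : ℕ) [NeZero N] (k : ℤ) (f g : CuspForm (Gamma0 N) k) :
    Continuous (petersson k f g) ∧ (∃ C, ∀ τ, ‖petersson k f g τ‖ ≤ C) ∧
      (∀ γ ∈ Gamma N, ∀ τ, petersson k f g (γ • τ) = petersson k f g τ) :=
  petersson_cuspForm_props_aux N k f g

/-- decomposition of the Petersson integrands of `(T_p f, g)` and `(f, T_p g)`. -/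
theorem exists_petersson_heckeT_decomp (N : ℕ) [NeZero N] (k : ℤ) {p : ℕ} (hp : p.Prime)
    (hpN : ¬ p ∣ N) (f g : CuspForm (Gamma0 N) k) :
    ∃ (φ : ℍ → ℂ) (σ σ' : Fin (p + 1) → SL(2, ℤ)),
      Continuous φ ∧ (∃ C, ∀ τ, ‖φ τ‖ ≤ C) ∧
      (∀ γ ∈ Gamma (N * p), ∀ τ, φ (γ • τ) = φ τ) ∧
      (∀ γ ∈ Gamma (N * p), ∀ τ,
        φ (heckeDiagMatrix p • γ • τ) = φ (heckeDiagMatrix p • τ)) ∧
      (∀ τ, petersson k (CuspForm.heckeTLin k hp hpN f) g τ = ∑ i, φ (σ i • τ)) ∧
      (∀ τ, petersson k f (CuspForm.heckeTLin k hp hpN g) τ =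
        ∑ i, φ (heckeDiagMatrix p • σ' i • τ)) := by
  have hp0 : p ≠ 0 := hp.ne_zero
  have hpC : (p : ℂ) ≠ 0 := by exact_mod_cast hp0
  -- Bezout
  have hcop : IsCoprime (p : ℤ) (N : ℤ) := by
    rw [Int.isCoprime_iff_gcd_eq_one, Int.gcd_natCast_natCast]
    exact (Nat.Prime.coprime_iff_not_dvd hp).mpr hpN
  obtain ⟨x, y, hxy⟩ := hcop
  have hγdet : ((p : ℤ) * x) * 1 - (-y) * N = 1 := by linarith
  have hδdet : x * (p : ℤ) - (-y) * N = 1 := by linarith
  set γ : SL(2, ℤ) := phSL (p * x) (-y) N 1 hγdet with hγ_def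
  set δ : SL(2, ℤ) := phSL x (-y) N p hδdet with hδ_def
  have hγmem : γ ∈ Gamma0 N := ph_phSL_mem_Gamma0 N _ _ _ _ _ dvd_rfl
  have hδmem : δ ∈ Gamma0 N := ph_phSL_mem_Gamma0 N _ _ _ _ _ dvd_rfl
  have hswap : (δ : GL (Fin 2) ℝ) * heckeDiagMatrix p = heckeMatrix p 0 * (γ : GL (Fin 2) ℝ) :=
    ph_swap hp0 N x y hγdet hδdet
  let Tj : ℕ → SL(2, ℤ) := fun j => phSL 1 j 0 1 (by ring)
  have hTmem : ∀ j, Tj j ∈ Gamma0 N := fun j => ph_phSL_mem_Gamma0 N _ _ _ _ _ (dvd_zero _)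
  set F₀ : ℍ → ℂ := ⇑f ∣[k] heckeMatrix p 0 with hF₀
  set φ : ℍ → ℂ := petersson k F₀ ⇑g with hφ
  -- slash identities
  have hfinf : ∀ h : CuspForm (Gamma0 N) k,
      ⇑h ∣[k] heckeDiagMatrix p = (⇑h ∣[k] heckeMatrix p 0) ∣[k] γ := by
    intro h
    conv_lhs => rw [← ph_slash_eq h hδmem]
    rw [ModularForm.SL_slash, ← SlashAction.slash_mul, hswap, SlashAction.slash_mul,
      ← ModularForm.SL_slash]
  have hfzero : ∀ h : CuspForm (Gamma0 N) k,
      ⇑h ∣[k] heckeMatrix p 0 = (⇑h ∣[k] heckeDiagMatrix p) ∣[k] γ⁻¹ := by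
    intro h
    rw [hfinf h, ← SlashAction.slash_mul, mul_inv_cancel, SlashAction.slash_one]
  -- the four term identities
  have D1 : ∀ j τ, petersson k (⇑f ∣[k] heckeMatrix p j) ⇑g τ = φ (Tj j • τ) := by
    intro j τ
    rw [hφ, ← petersson_slash_SL, ph_slash_eq g (hTmem j), ph_slash_heckeMatrix hp0 j]
  have D2 : ∀ τ, petersson k (⇑f ∣[k] heckeDiagMatrix p) ⇑g τ = φ (γ • τ) := by
    intro τ
    rw [hφ, ← petersson_slash_SL, ph_slash_eq g hγmem, hfinf f]
  have D3 : ∀ τ, petersson k ⇑f (⇑g ∣[k] heckeDiagMatrix p) τ = φ (heckeDiagMatrix p • τ) :=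
    fun τ => ph_key hp0 k _ _ τ
  have D4 : ∀ j τ, petersson k ⇑f (⇑g ∣[k] heckeMatrix p j) τ =
      φ (heckeDiagMatrix p • (γ⁻¹ * Tj j) • τ) := by
    intro j τ
    rw [← D3, ← petersson_slash_SL, ph_slash_eq f (mul_mem (inv_mem hγmem) (hTmem j)),
      ph_slash_heckeMatrix hp0 j, hfzero g, ← SlashAction.slash_mul]
  refine ⟨φ, fun i => if (i : ℕ) < p then Tj i else γ,
    fun i => if (i : ℕ) < p then γ⁻¹ * Tj i else 1, ?_, ?_, ?_, ?_, ?_, ?_⟩
  · -- continuity
    refine petersson_continuous k ?_ (CuspFormClass.holo g).continuous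
    have : F₀ = fun τ => (p : ℂ)⁻¹ * f (heckeMatrix p 0 • τ) := by
      funext τ
      rw [hF₀, slash_heckeMatrix_apply k hp0]
    rw [this]
    exact continuous_const.mul
      ((CuspFormClass.holo f).continuous.comp (continuous_const_smul (heckeMatrix p 0)))
  · -- boundedness
    obtain ⟨Cf, hCf⟩ := CuspFormClass.petersson_bounded_left k _ f f
    obtain ⟨Cg, hCg⟩ := CuspFormClass.petersson_bounded_left k _ g g
    have hF₀bd : ∀ τ, ‖petersson k F₀ F₀ τ‖ ≤ (p : ℝ) ^ (k - 2) * Cf := by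
      intro τ
      rw [hF₀, petersson_slash, norm_mul, norm_σ, det_heckeMatrix hp0, Nat.abs_cast,
        Complex.ofReal_natCast, norm_zpow, Complex.norm_natCast]
      exact mul_le_mul_of_nonneg_left (hCf _) (zpow_nonneg (Nat.cast_nonneg p) _)
    refine ⟨(p : ℝ) ^ (k - 2) * Cf * Cg + 1, fun τ => ?_⟩
    have h1 : ‖φ τ‖ ^ 2 ≤ (p : ℝ) ^ (k - 2) * Cf * Cg := by
      rw [hφ, ph_norm_petersson_sq]
      exact mul_le_mul (hF₀bd τ) (hCg τ) (norm_nonneg _) ((norm_nonneg _).trans (hF₀bd τ))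
    nlinarith [sq_nonneg (‖φ τ‖ - 1), norm_nonneg (φ τ)]
  · -- invariance of φ
    intro γ' hγ' τ
    obtain ⟨⟨b', hb'⟩, -, hNc⟩ := ph_Gamma_entries hγ'
    have hγ'0 : γ' ∈ Gamma0 N := by
      rw [Gamma0_mem]; exact (ZMod.intCast_zmod_eq_zero_iff_dvd _ N).mpr hNc
    have hdet := ph_det γ'
    have h1 : γ' 0 0 * γ' 1 1 - (p * b') * γ' 1 0 = 1 := by rw [← hb']; exact hdet
    have h2 : γ' 0 0 * γ' 1 1 - b' * (p * γ' 1 0) = 1 := by linarith
    have hγ'eq : γ' = phSL (γ' 0 0) (p * b') (γ' 1 0) (γ' 1 1) h1 :=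
      ph_eq_phSL γ' _ _ _ _ h1 rfl hb' rfl rfl
    have hε : phSL (γ' 0 0) b' (p * γ' 1 0) (γ' 1 1) h2 ∈ Gamma0 N :=
      ph_phSL_mem_Gamma0 N _ _ _ _ _ (Dvd.dvd.mul_left hNc _)
    refine ph_petersson_smul _ _ γ' ?_ (ph_slash_eq g hγ'0) τ
    rw [hF₀, ModularForm.SL_slash, ← SlashAction.slash_mul]
    conv_lhs => rw [hγ'eq, ph_conj_zero hp0 _ _ _ _ h1 h2, SlashAction.slash_mul,
      ← ModularForm.SL_slash, ph_slash_eq f hε]
  · -- invariance of φ ∘ β∞
    intro γ' hγ' τ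
    obtain ⟨-, ⟨c', hc', hNc'⟩, hNc⟩ := ph_Gamma_entries hγ'
    have hγ'0 : γ' ∈ Gamma0 N := by
      rw [Gamma0_mem]; exact (ZMod.intCast_zmod_eq_zero_iff_dvd _ N).mpr hNc
    have hdet := ph_det γ'
    have h1 : γ' 0 0 * γ' 1 1 - γ' 0 1 * (p * c') = 1 := by rw [← hc']; exact hdet
    have h2 : γ' 0 0 * γ' 1 1 - (p * γ' 0 1) * c' = 1 := by linarith
    have hγ'eq : γ' = phSL (γ' 0 0) (γ' 0 1) (p * c') (γ' 1 1) h1 :=
      ph_eq_phSL γ' _ _ _ _ h1 rfl rfl hc' rfl
    have hε : phSL (γ' 0 0) (p * γ' 0 1) c' (γ' 1 1) h2 ∈ Gamma0 N :=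
      ph_phSL_mem_Gamma0 N _ _ _ _ _ hNc'
    rw [← D3, ← D3]
    refine ph_petersson_smul _ _ γ' (ph_slash_eq f hγ'0) ?_ τ
    rw [ModularForm.SL_slash, ← SlashAction.slash_mul]
    conv_lhs => rw [hγ'eq, ph_conj_infty hp0 _ _ _ _ h1 h2, SlashAction.slash_mul,
      ← ModularForm.SL_slash, ph_slash_eq g hε]
  · intro τ
    rw [CuspForm.coe_heckeTLin_apply, heckeT_def, ph_petersson_add_left, ph_petersson_sum_left,
      Fin.sum_univ_castSucc, Finset.sum_range]
    congr 1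
    · refine Finset.sum_congr rfl fun i _ => ?_
      simp only [Fin.val_castSucc, Fin.is_lt, if_true]
      exact D1 _ _
    · simp only [Fin.val_last, lt_irrefl, if_false]
      exact D2 _
  · intro τ
    rw [CuspForm.coe_heckeTLin_apply, heckeT_def, ph_petersson_add_right, ph_petersson_sum_right,
      Fin.sum_univ_castSucc, Finset.sum_range]
    congr 1
    · refine Finset.sum_congr rfl fun i _ => ?_
      simp only [Fin.val_castSucc, Fin.is_lt, if_true]
      exact D4 _ _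
    · simp only [Fin.val_last, lt_irrefl, if_false, one_smul]
      exact D3 _

end Fermat.Agent.Pet
end MergeWrap_Lib_Petersson_PetHecke

section MergeWrap_Lib_Petersson_Adjoint -- from Lib/Petersson/Adjoint.lean

/-!
# Lib/Petersson/Adjoint: the Hecke operators `T_p`, `p ∤ N`, are self-adjoint (owner: helper33)
-/

namespace Fermat.Agent.Pet

open MeasureTheory UpperHalfPlane CongruenceSubgroup ModularForm

open scoped MatrixGroups ModularForm

theorem exists_isWeight_GammaGL (m : ℕ) [NeZero m] :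
    ∃ w, IsWeight (volume : Measure ℍ) (GammaGL m) w := by
  have := countable_SLZ
  exact IsWeight.exists_of_ge (GammaGL_le_SLZ m) (relIndex_GammaGL_SLZ_ne_zero m) isWeight_fd

/-- a weight for `Γ(m)`. -/
noncomputable def wt (m : ℕ) [NeZero m] : ℍ → ℝ := Classical.choose (exists_isWeight_GammaGL m)

theorem isWeight_wt (m : ℕ) [NeZero m] : IsWeight (volume : Measure ℍ) (GammaGL m) (wt m) :=
  Classical.choose_spec (exists_isWeight_GammaGL m)

/-- the mean at level `m`. -/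
noncomputable def lmean (m : ℕ) [NeZero m] (φ : ℍ → ℂ) : ℂ := mean volume (wt m) φ

/-- admissible functions of level `m`. -/
structure IsAdm (m : ℕ) (φ : ℍ → ℂ) : Prop where
  cont : Continuous φ
  bdd : ∃ C, ∀ τ, ‖φ τ‖ ≤ C
  inv : ∀ γ ∈ Gamma m, ∀ τ, φ (γ • τ) = φ τ

theorem IsAdm.aesm {m : ℕ} {φ : ℍ → ℂ} (h : IsAdm m φ) :
    AEStronglyMeasurable φ (volume : Measure ℍ) :=
  h.cont.aestronglyMeasurable

theorem IsAdm.comp_SL {m : ℕ} {φ : ℍ → ℂ} (h : IsAdm m φ) (γ : SL(2, ℤ)) :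
    IsAdm m (fun τ => φ (γ • τ)) where
  cont := h.cont.comp (continuous_const_smul (Matrix.SpecialLinearGroup.mapGL ℝ γ))
  bdd := by
    obtain ⟨C, hC⟩ := h.bdd
    exact ⟨C, fun τ => hC _⟩
  inv := by
    intro δ hδ τ
    have h1 : γ * δ * γ⁻¹ ∈ Gamma m := (Gamma_normal m).conj_mem δ hδ γ
    have := h.inv _ h1 (γ • τ)
    rw [← this, ← mul_smul, ← mul_smul]
    congr 2
    group

theorem map_conj_one_eq {G : Type*} [Group G] (H : Subgroup G) :
    H.map (MulAut.conj (1 : G)).toMonoidHom = H := by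
  ext x
  simp

theorem lmean_of_dvd {m m' : ℕ} [NeZero m] [NeZero m'] (hd : m ∣ m') {φ : ℍ → ℂ}
    (h : IsAdm m φ) : lmean m' φ = lmean m φ := by
  have := countable_GammaGL m
  have := countable_GammaGL m'
  have key := mean_comp_smul (isWeight_wt m) (isWeight_wt m') (1 : GL (Fin 2) ℝ)
    (by rw [map_conj_one_eq]; exact GammaGL_le_of_dvd hd)
    (by rw [map_conj_one_eq]; exact relIndex_GammaGL_ne_zero hd)
    h.aesm h.bdd ((forall_mem_GammaGL_iff m φ).2 h.inv)
  simpa [lmean] using key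

theorem lmean_comp_SL {m : ℕ} [NeZero m] {φ : ℍ → ℂ} (h : IsAdm m φ) (γ : SL(2, ℤ)) :
    lmean m (fun τ => φ (γ • τ)) = lmean m φ := by
  have := countable_GammaGL m
  have key := mean_comp_smul (isWeight_wt m) (isWeight_wt m)
    (Matrix.SpecialLinearGroup.mapGL ℝ γ)
    (by rw [map_conj_SL_GammaGL]) (by rw [map_conj_SL_GammaGL]; simp)
    h.aesm h.bdd ((forall_mem_GammaGL_iff m φ).2 h.inv)
  exact key

theorem lmean_comp_diag {m p : ℕ} [NeZero m] [NeZero p] {φ : ℍ → ℂ} (h : IsAdm m φ) :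
    lmean (m * p) (fun τ => φ (heckeDiagMatrix p • τ)) = lmean m φ := by
  have := countable_GammaGL m
  have := countable_GammaGL (m * p)
  exact mean_comp_smul (isWeight_wt m) (isWeight_wt (m * p)) (heckeDiagMatrix p)
    (map_conj_diag_GammaGL_le m p) (relIndex_map_conj_diag_ne_zero m p)
    h.aesm h.bdd ((forall_mem_GammaGL_iff m φ).2 h.inv)

theorem lmean_sum {m : ℕ} [NeZero m] {ι : Type*} (s : Finset ι) {φ : ι → ℍ → ℂ}
    (h : ∀ i ∈ s, IsAdm m (φ i)) :
    lmean m (fun τ => ∑ i ∈ s, φ i τ) = ∑ i ∈ s, lmean m (φ i) :=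
  (isWeight_wt m).mean_finset_sum s (fun i hi => (h i hi).aesm) (fun i hi => (h i hi).bdd)

theorem lmean_add {m : ℕ} [NeZero m] {φ ψ : ℍ → ℂ} (h : IsAdm m φ) (h' : IsAdm m ψ) :
    lmean m (fun τ => φ τ + ψ τ) = lmean m φ + lmean m ψ :=
  (isWeight_wt m).mean_add h.aesm h.bdd h'.aesm h'.bdd

/-- the Petersson form. -/
noncomputable def petForm (N : ℕ) [NeZero N] (k : ℤ) (f g : CuspForm (Gamma0 N) k) : ℂ :=
  lmean N (petersson k f g)

theorem isAdm_petersson (N : ℕ) [NeZero N] (k : ℤ) (f g : CuspForm (Gamma0 N) k) :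
    IsAdm N (petersson k f g) :=
  ⟨(petersson_cuspForm_props N k f g).1, (petersson_cuspForm_props N k f g).2.1,
    (petersson_cuspForm_props N k f g).2.2⟩

theorem petForm_add_left (N : ℕ) [NeZero N] (k : ℤ) (f g h : CuspForm (Gamma0 N) k) :
    petForm N k (f + g) h = petForm N k f h + petForm N k g h := by
  unfold petForm
  rw [← lmean_add (isAdm_petersson N k f h) (isAdm_petersson N k g h)]
  congr 1
  funext τ
  simp [petersson, add_mul]

theorem petForm_add_right (N : ℕ) [NeZero N] (k : ℤ) (f g h : CuspForm (Gamma0 N) k) :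
    petForm N k f (g + h) = petForm N k f g + petForm N k f h := by
  unfold petForm
  rw [← lmean_add (isAdm_petersson N k f g) (isAdm_petersson N k f h)]
  congr 1
  funext τ
  simp [petersson, mul_add, add_mul]

theorem petForm_definite (N : ℕ) [NeZero N] (k : ℤ) (f : CuspForm (Gamma0 N) k)
    (h0 : petForm N k f f = 0) : f = 0 := by
  have := countable_GammaGL N
  have := isOpenPosMeasure_upperHalfPlane
  have hw := isWeight_wt N
  have hpos : 0 < ∫ τ, wt N τ := hw.integral_pos (by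
    intro h
    have := (isOpenPosMeasure_upperHalfPlane).open_pos Set.univ isOpen_univ
      ⟨UpperHalfPlane.I, trivial⟩
    exact this (by rw [h]; rfl))
  -- the real integrand
  set ψ : ℍ → ℝ := fun τ => ‖f τ‖ ^ 2 * τ.im ^ k with hψ
  have hpet : ∀ τ, petersson k f f τ = ((ψ τ : ℝ) : ℂ) := by
    intro τ
    simp only [petersson, hψ]
    rw [Complex.conj_mul']
    push_cast
    ring
  have hadm := isAdm_petersson N k f f
  have h1 : ∫ τ, wt N τ • petersson k f f τ = 0 := by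
    have : (∫ τ, wt N τ)⁻¹ • ∫ τ, wt N τ • petersson k f f τ = 0 := h0
    rcases smul_eq_zero.1 this with h | h
    · exact absurd (inv_eq_zero.1 h) hpos.ne'
    · exact h
  have h2 : ∫ τ, wt N τ * ψ τ = 0 := by
    have : (fun τ => wt N τ • petersson k f f τ) = fun τ => ((wt N τ * ψ τ : ℝ) : ℂ) := by
      funext τ
      rw [hpet]
      simp [Complex.real_smul]
    rw [this] at h1
    have h3 : ∫ τ, ((wt N τ * ψ τ : ℝ) : ℂ) = ((∫ τ, wt N τ * ψ τ : ℝ) : ℂ) := integral_ofReal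
    rw [h3] at h1
    exact_mod_cast h1
  have hψz := hw.eq_zero_of_integral_eq_zero (ψ := ψ) ?_ ?_ ?_ ?_ h2
  · ext τ
    have := hψz τ
    simp only [hψ] at this
    have him : (τ.im ^ k) ≠ 0 := zpow_ne_zero _ τ.im_pos.ne'
    have : ‖f τ‖ ^ 2 = 0 := by
      rcases mul_eq_zero.1 this with h | h
      · exact h
      · exact absurd h him
    simpa using this
  · have : Continuous fun τ : ℍ => (petersson k f f τ).re := Complex.continuous_re.comp hadm.cont
    refine this.congr fun τ => ?_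
    rw [hpet]; simp
  · intro τ
    exact mul_nonneg (by positivity) (zpow_nonneg τ.im_pos.le _)
  · obtain ⟨C, hC⟩ := hadm.bdd
    refine ⟨C, fun τ => ?_⟩
    have := hC τ
    rw [hpet, Complex.norm_real] at this
    exact (le_abs_self _).trans this
  · intro δ hδ τ
    have := (forall_mem_GammaGL_iff N (petersson k f f)).2 hadm.inv δ hδ τ
    rw [hpet, hpet] at this
    exact_mod_cast this

theorem petForm_heckeT (N : ℕ) [NeZero N] (k : ℤ) {p : ℕ} (hp : p.Prime) (hpN : ¬ p ∣ N)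
    (f g : CuspForm (Gamma0 N) k) :
    petForm N k (CuspForm.heckeTLin k hp hpN f) g = petForm N k f (CuspForm.heckeTLin k hp hpN g) := by
  have : NeZero p := ⟨hp.ne_zero⟩
  obtain ⟨φ, σ, σ', hc, hb, hinv, hinv', hL, hR⟩ := exists_petersson_heckeT_decomp N k hp hpN f g
  have hφ : IsAdm (N * p) φ := ⟨hc, hb, hinv⟩
  have hφ' : IsAdm (N * p) (fun τ => φ (heckeDiagMatrix p • τ)) :=
    ⟨hc.comp (continuous_const_smul _), by obtain ⟨C, hC⟩ := hb; exact ⟨C, fun τ => hC _⟩, hinv'⟩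
  have hdvd : N ∣ N * p := dvd_mul_right N p
  have eL : petForm N k (CuspForm.heckeTLin k hp hpN f) g = (p + 1 : ℕ) • lmean (N * p) φ := by
    unfold petForm
    rw [← lmean_of_dvd hdvd (isAdm_petersson N k _ g)]
    have : petersson k (CuspForm.heckeTLin k hp hpN f) g = fun τ => ∑ i, φ (σ i • τ) :=
      funext hL
    rw [this, lmean_sum Finset.univ (fun i _ => hφ.comp_SL (σ i)),
      Finset.sum_congr rfl (fun i _ => lmean_comp_SL hφ (σ i))]
    simp
  have eR : petForm N k f (CuspForm.heckeTLin k hp hpN g) =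
      (p + 1 : ℕ) • lmean (N * p) (fun τ => φ (heckeDiagMatrix p • τ)) := by
    unfold petForm
    rw [← lmean_of_dvd hdvd (isAdm_petersson N k f _)]
    have : petersson k f (CuspForm.heckeTLin k hp hpN g) =
        fun τ => ∑ i, φ (heckeDiagMatrix p • σ' i • τ) := funext hR
    rw [this, lmean_sum Finset.univ (fun i _ => hφ'.comp_SL (σ' i)),
      Finset.sum_congr rfl (fun i _ => lmean_comp_SL hφ' (σ' i))]
    simp
  rw [eL, eR]
  congr 1
  rw [← lmean_of_dvd (dvd_mul_right (N * p) p) hφ', lmean_comp_diag hφ]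

/-- **Main theorem of the analytic half.** -/
theorem hasSelfAdjointForm (N : ℕ) [NeZero N] (k : ℤ) : HasSelfAdjointForm N k :=
  ⟨petForm N k, petForm_add_left N k, petForm_add_right N k, petForm_definite N k,
    fun _ hℓ hℓN f g => petForm_heckeT N k hℓ hℓN f g⟩

end Fermat.Agent.Pet
end MergeWrap_Lib_Petersson_Adjoint

section MergeWrap_Lib_Petersson_Reduced -- from Lib/Petersson/Reduced.lean

/-!
# Petersson P5 (algebraic half): self-adjoint Hecke operators ⇒ the Hecke algebra is reduced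

Abstract statement: if a biadditive definite form `B` on `S_k(Γ₀(N))` exists for which every
generator of the Hecke algebra is self-adjoint, then `heckeAlgebra N k S` is a reduced ring.
(Every element of the `ℤ`-algebra generated by commuting self-adjoint operators is self-adjoint,
and a nilpotent self-adjoint operator for a definite form vanishes.)

Owner: helper31.  Consumer: `HeckeDVRSeparation` (helper62), S31–S34.
-/

namespace Fermat.Agent.Pet

open CuspForm

section Abstract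

variable {V : Type*} [AddCommGroup V] [Module ℂ V]

/-- Every element of the `ℤ`-algebra generated by a family of pairwise commuting operators that
are self-adjoint for a biadditive form is self-adjoint. -/
theorem selfAdjoint_of_mem_adjoin (B : V → V → ℂ)
    (hadd_left : ∀ f g h, B (f + g) h = B f h + B g h)
    (hadd_right : ∀ f g h, B f (g + h) = B f g + B f h)
    (G : Set (Module.End ℂ V))
    (hcomm : ∀ T ∈ G, ∀ T' ∈ G, Commute T T')
    (hsa : ∀ T ∈ G, ∀ f g, B (T f) g = B f (T g))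
    {t : Module.End ℂ V} (ht : t ∈ Algebra.adjoin ℤ G) :
    ∀ f g, B (t f) g = B f (t g) := by
  have hzero_left : ∀ g, B 0 g = 0 := fun g => by
    have := hadd_left 0 0 g
    simp only [add_zero] at this
    exact left_eq_add.mp this
  have hzero_right : ∀ f, B f 0 = 0 := fun f => by
    have := hadd_right f 0 0
    simp only [add_zero] at this
    exact left_eq_add.mp this
  have hneg_left : ∀ f g, B (-f) g = -B f g := fun f g => by
    have := hadd_left f (-f) g
    rw [add_neg_cancel, hzero_left] at this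
    exact (neg_eq_of_add_eq_zero_right this.symm).symm
  have hneg_right : ∀ f g, B f (-g) = -B f g := fun f g => by
    have := hadd_right f g (-g)
    rw [add_neg_cancel, hzero_right] at this
    exact (neg_eq_of_add_eq_zero_right this.symm).symm
  have hnat : ∀ (n : ℕ) f g, B (n • f) g = B f (n • g) := by
    intro n f g
    induction n with
    | zero => simp [hzero_left, hzero_right]
    | succ n ih => rw [succ_nsmul, succ_nsmul, hadd_left, hadd_right, ih]
  have hint : ∀ (n : ℤ) f g, B (n • f) g = B f (n • g) := by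
    intro n f g
    cases n with
    | ofNat n => simpa using hnat n f g
    | negSucc n =>
      rw [negSucc_zsmul, negSucc_zsmul, hneg_left, hneg_right, hnat]
  -- the commutativity of the adjoin
  have hcommAdj : ∀ a ∈ Algebra.adjoin ℤ G, ∀ b ∈ Algebra.adjoin ℤ G, Commute a b := by
    intro a ha b hb
    have := Algebra.isMulCommutative_adjoin ℤ (s := G) fun a ha b hb => hcomm a ha b hb
    exact congrArg Subtype.val (this.is_comm.comm ⟨a, ha⟩ ⟨b, hb⟩)
  induction ht using Algebra.adjoin_induction with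
  | mem x hx => exact hsa x hx
  | algebraMap r =>
    intro f g
    have h1 : (algebraMap ℤ (Module.End ℂ V) r) f = r • f := by
      simp
    have h2 : (algebraMap ℤ (Module.End ℂ V) r) g = r • g := by
      simp
    rw [h1, h2, hint]
  | add x y _ _ hx hy =>
    intro f g
    simp only [LinearMap.add_apply, hadd_left, hadd_right, hx, hy]
  | mul x y hxm hym hx hy =>
    intro f g
    have hc : x * y = y * x := (hcommAdj x hxm y hym).eq
    calc B ((x * y) f) g = B (x (y f)) g := rfl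
      _ = B (y f) (x g) := hx _ _
      _ = B f (y (x g)) := hy _ _
      _ = B f ((y * x) g) := rfl
      _ = B f ((x * y) g) := by rw [hc]

/-- A nilpotent operator that is self-adjoint (together with all its powers) for a definite
biadditive form vanishes. -/
theorem eq_zero_of_selfAdjoint_pow (B : V → V → ℂ)
    (hdef : ∀ f, B f f = 0 → f = 0)
    (hzero_right : ∀ f, B f 0 = 0)
    {t : Module.End ℂ V} (hsa : ∀ f g, B (t f) g = B f (t g))
    (hnil : IsNilpotent t) : t = 0 := by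
  obtain ⟨n, hn⟩ := hnil
  -- reduce to the case t ^ 2 = 0 by downward induction
  have key : ∀ s : Module.End ℂ V, (∀ f g, B (s f) g = B f (s g)) → s ^ 2 = 0 → s = 0 := by
    intro s hs h2
    ext f
    apply hdef
    have : B (s f) (s f) = B f ((s ^ 2) f) := by
      rw [hs, pow_two]; rfl
    rw [this, h2, LinearMap.zero_apply, hzero_right]
  have hpow_sa : ∀ m : ℕ, ∀ f g, B ((t ^ m) f) g = B f ((t ^ m) g) := by
    intro m
    induction m with
    | zero => intro f g; simp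
    | succ m ih =>
      intro f g
      calc B ((t ^ (m + 1)) f) g = B ((t ^ m) (t f)) g := by rw [pow_succ]; rfl
        _ = B (t f) ((t ^ m) g) := ih _ _
        _ = B f (t ((t ^ m) g)) := hsa _ _
        _ = B f ((t ^ (m + 1)) g) := by rw [pow_succ']; rfl
  -- t ^ (2 ^ j) = 0 for some j, descend
  have h2pow : ∀ j : ℕ, t ^ (2 ^ j) = 0 → t = 0 := by
    intro j
    induction j with
    | zero => intro h; simpa using h
    | succ j ih =>
      intro h
      apply ih
      apply key _ (hpow_sa _)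
      rw [← pow_mul, ← pow_succ]
      exact h
  apply h2pow n
  have hle : n ≤ 2 ^ n := Nat.lt_two_pow_self.le
  exact pow_eq_zero_of_le hle hn

end Abstract

variable {N : ℕ} [NeZero N] {k : ℤ} {S : Set ℕ}

/-- **P5, step 1.** If every generator of the Hecke algebra is self-adjoint for a biadditive
definite form on `S_k(Γ₀(N))`, the Hecke algebra is reduced. -/
theorem isReduced_heckeAlgebra_of_form
    (B : CuspForm (CongruenceSubgroup.Gamma0 N) k → CuspForm (CongruenceSubgroup.Gamma0 N) k → ℂ)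
    (hadd_left : ∀ f g h, B (f + g) h = B f h + B g h)
    (hadd_right : ∀ f g h, B f (g + h) = B f g + B f h)
    (hdef : ∀ f, B f f = 0 → f = 0)
    (hsa : ∀ T ∈ heckeGenerators N k S, ∀ f g, B (T f) g = B f (T g)) :
    IsReduced (heckeAlgebra N k S) := by
  have hzero_right : ∀ f, B f 0 = 0 := fun f => by
    have := hadd_right f 0 0
    simp only [add_zero] at this
    exact left_eq_add.mp this
  refine ⟨fun x hx => ?_⟩
  apply Subtype.ext
  have hx' : IsNilpotent (x : Module.End ℂ (CuspForm (CongruenceSubgroup.Gamma0 N) k)) := by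
    obtain ⟨n, hn⟩ := hx
    refine ⟨n, ?_⟩
    have := congrArg Subtype.val hn
    simpa using this
  exact eq_zero_of_selfAdjoint_pow B hdef hzero_right
    (selfAdjoint_of_mem_adjoin B hadd_left hadd_right _
      (fun T hT T' hT' => commute_of_mem_heckeGenerators hT hT') hsa x.2) hx'

/-- **P5, step 1, anemic form.** If `S` contains all primes dividing `N` and every `T_ℓ`
(`ℓ ∤ N`) is self-adjoint for a biadditive definite form, the Hecke algebra away from `S` is
reduced. -/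
theorem isReduced_heckeAlgebra_of_heckeT_selfAdjoint
    (hNS : ∀ q : ℕ, q.Prime → q ∣ N → q ∈ S)
    (B : CuspForm (CongruenceSubgroup.Gamma0 N) k → CuspForm (CongruenceSubgroup.Gamma0 N) k → ℂ)
    (hadd_left : ∀ f g h, B (f + g) h = B f h + B g h)
    (hadd_right : ∀ f g h, B f (g + h) = B f g + B f h)
    (hdef : ∀ f, B f f = 0 → f = 0)
    (hsa : ∀ (ℓ : ℕ) (hℓ : ℓ.Prime) (hℓN : ¬ ℓ ∣ N), ℓ ∉ S → ∀ f g,
      B (heckeTLin k hℓ hℓN f) g = B f (heckeTLin k hℓ hℓN g)) :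
    IsReduced (heckeAlgebra N k S) := by
  refine isReduced_heckeAlgebra_of_form B hadd_left hadd_right hdef ?_
  rintro T (⟨ℓ, hℓ, hℓN, hℓS, rfl⟩ | ⟨q, hqN, hq, hqS, rfl⟩)
  · exact hsa ℓ hℓ hℓN hℓS
  · exact absurd (hNS q hq hqN) hqS

/-- **P5, step 1, interface form.** `HasSelfAdjointForm N k` (the output of the analytic half)
makes the Hecke algebra away from any `S` containing the primes of the level reduced. -/
theorem isReduced_heckeAlgebra_of_hasSelfAdjointForm
    (hNS : ∀ q : ℕ, q.Prime → q ∣ N → q ∈ S) (h : HasSelfAdjointForm N k) :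
    IsReduced (heckeAlgebra N k S) := by
  obtain ⟨B, h1, h2, h3, h4⟩ := h
  exact isReduced_heckeAlgebra_of_heckeT_selfAdjoint hNS B h1 h2 h3
    fun ℓ hℓ hℓN _ f g => h4 ℓ hℓ hℓN f g

end Fermat.Agent.Pet
end MergeWrap_Lib_Petersson_Reduced

section MergeWrap_Lib_Petersson_Main -- from Lib/Petersson/Main.lean

/-!
# Lib/Petersson/Main: the Hecke algebra away from the level is reduced

`Fermat.Agent.Pet.isReduced_heckeAlgebra`: if `S` contains all primes dividing `N`, then the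
ring `CuspForm.heckeAlgebra N k S` (generated by the `T_ℓ`, `ℓ ∤ N`, `ℓ ∉ S`) is reduced.
Sorry-free; analytic input `hasSelfAdjointForm` (Petersson scalar product, self-adjointness of
`T_ℓ`), algebraic part `isReduced_heckeAlgebra_of_hasSelfAdjointForm` (helper31).
-/

namespace Fermat.Agent.Pet

/-- The Hecke algebra away from the level is reduced. -/
theorem isReduced_heckeAlgebra (N : ℕ) [NeZero N] (k : ℤ) (S : Set ℕ)
    (hS : ∀ q : ℕ, q.Prime → q ∣ N → q ∈ S) : IsReduced (CuspForm.heckeAlgebra N k S) :=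
  isReduced_heckeAlgebra_of_hasSelfAdjointForm hS (hasSelfAdjointForm N k)

end Fermat.Agent.Pet
end MergeWrap_Lib_Petersson_Main
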